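import Fermat.Agent.S55.C.UP

/-!
# S55, layer C: the "Euler characteristic" count (EC) for layer D.

`VS p S = {a ∈ Fˣ | p ∣ ord_w a for all w ∉ S}`,
`CS p S = {m : Pl F →₀ ZMod p | m = div x outside S for some x ∈ Fˣ}`
(so `(Pl F →₀ ZMod p) ⧸ CS p S = coker (Fˣ → ⨁_{w ∉ S} ℤ/p)`).

`EC : [VS : Fˣᵖ] = [⨁ : CS] * p ^ (#S + r)`.
-/

set_option autoImplicit false

namespace Fermat.Agent.S55.C

open IsDedekindDomain NumberField Fermat.Agent.S14

variable {F : Type*} [Field F] [NumberField F]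

/-- elements whose divisor is a `p`-th power outside `S` -/
def VS (p : ℕ) (S : Finset (Pl F)) : Subgroup Fˣ where
  carrier := {a | ∀ w ∉ S, (p : ℤ) ∣ ord w a}
  one_mem' := fun w _ => by rw [ord_one]; exact dvd_zero _
  mul_mem' := fun {a b} ha hb w hw => by rw [ord_mul]; exact dvd_add (ha w hw) (hb w hw)
  inv_mem' := fun {a} ha w hw => by rw [ord_inv]; exact (dvd_neg).mpr (ha w hw)

theorem mem_VS (p : ℕ) (S : Finset (Pl F)) (a : Fˣ) :
    a ∈ VS p S ↔ ∀ w ∉ S, (p : ℤ) ∣ ord w a := Iff.rfl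

/-- the divisor modulo `p` -/
noncomputable def divP (p : ℕ) (x : Fˣ) : Pl F →₀ ZMod p :=
  Finsupp.ofSupportFinite (fun v => (ord v x : ZMod p)) ((ord_support_finite x).subset fun v hv => by
    intro h0
    apply hv
    change ((ord v x : ℤ) : ZMod p) = 0
    rw [h0]; simp)

@[simp] theorem divP_apply (p : ℕ) (x : Fˣ) (v : Pl F) : divP p x v = (ord v x : ZMod p) := rfl

theorem divP_mul (p : ℕ) (x y : Fˣ) : divP p (x * y) = divP p x + divP p y := by
  ext v; simp [ord_mul]

theorem divP_one (p : ℕ) : divP p (1 : Fˣ) = 0 := by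
  ext v; simp [ord_one]

/-- divisors modulo `p` which are principal outside `S` -/
def CS (p : ℕ) (S : Finset (Pl F)) : AddSubgroup (Pl F →₀ ZMod p) where
  carrier := {m | ∃ x : Fˣ, ∀ v ∉ S, m v = (ord v x : ZMod p)}
  zero_mem' := ⟨1, fun v _ => by simp [ord_one]⟩
  add_mem' := by
    rintro a b ⟨x, hx⟩ ⟨y, hy⟩
    exact ⟨x * y, fun v hv => by rw [Finsupp.add_apply, hx v hv, hy v hv, ord_mul]; push_cast; rfl⟩
  neg_mem' := by
    rintro a ⟨x, hx⟩
    exact ⟨x⁻¹, fun v hv => by rw [Finsupp.neg_apply, hx v hv, ord_inv]; push_cast; rfl⟩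

theorem mem_CS (p : ℕ) (S : Finset (Pl F)) (m : Pl F →₀ ZMod p) :
    m ∈ CS p S ↔ ∃ x : Fˣ, ∀ v ∉ S, m v = (ord v x : ZMod p) := Iff.rfl

namespace ECaux

variable {p : ℕ} [Fact p.Prime]

/-- divisors supported in `Δ` -/
noncomputable def WW (p : ℕ) (Δ : Finset (Pl F)) : AddSubgroup (Pl F →₀ ZMod p) :=
  (Finsupp.supported (ZMod p) (ZMod p) (Δ : Set (Pl F))).toAddSubgroup

theorem mem_WW (Δ : Finset (Pl F)) (m : Pl F →₀ ZMod p) : m ∈ WW p Δ ↔ ∀ v ∉ Δ, m v = 0 := by
  change m ∈ Finsupp.supported (ZMod p) (ZMod p) (Δ : Set (Pl F)) ↔ _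
  rw [Finsupp.mem_supported']
  simp

theorem card_WW (Δ : Finset (Pl F)) : Nat.card (WW p Δ) = p ^ Δ.card := by
  have e := (Finsupp.supportedEquivFinsupp (M := ZMod p) (R := ZMod p) (Δ : Set (Pl F))).toEquiv
  have e2 := (Finsupp.equivFunOnFinite (α := (Δ : Set (Pl F))) (M := ZMod p))
  rw [show Nat.card (WW p Δ) = Nat.card (Finsupp.supported (ZMod p) (ZMod p) (Δ : Set (Pl F))) from rfl,
    Nat.card_congr e, Nat.card_congr e2, Nat.card_fun, Nat.card_zmod]
  simp

open Classical in
/-- the divisor modulo `p` restricted to `Δ` -/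
noncomputable def phi (p : ℕ) (Δ : Finset (Pl F)) : Fˣ →* Multiplicative (Pl F →₀ ZMod p) where
  toFun x := Multiplicative.ofAdd (Finsupp.filter (· ∈ Δ) (divP p x))
  map_one' := by rw [divP_one, Finsupp.filter_zero]; rfl
  map_mul' x y := by rw [divP_mul, Finsupp.filter_add, ofAdd_add]

open Classical in
theorem phi_apply (Δ : Finset (Pl F)) (x : Fˣ) (v : Pl F) :
    Multiplicative.toAdd (phi p Δ x) v = if v ∈ Δ then (ord v x : ZMod p) else 0 := by
  change (Finsupp.filter (· ∈ Δ) (divP p x)) v = _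
  rw [Finsupp.filter_apply, divP_apply]

/-- modifying an element of `VS` by a `p`-th power to an `S₁`-unit -/
theorem exists_sunit {S₁ : Finset (Pl F)} (hgen : Gen S₁) (x : Fˣ)
    (hx : ∀ v ∉ S₁, (p : ℤ) ∣ ord v x) : ∃ c : Fˣ, x * c ^ p ∈ SUnit F S₁ := by
  classical
  choose! k hk using hx
  let m : Pl F →₀ ℤ := Finsupp.ofSupportFinite (fun v => if v ∈ S₁ then 0 else - k v)
    ((ord_support_finite x).subset fun v hv => by
      intro h0
      apply hv
      change (if v ∈ S₁ then 0 else - k v) = 0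
      split_ifs with h
      · rfl
      · have := hk v h
        rw [h0] at this
        have hp0 : (p : ℤ) ≠ 0 := by exact_mod_cast (Fact.out : p.Prime).ne_zero
        have := (mul_eq_zero.mp this.symm).resolve_left hp0
        rw [this, neg_zero])
  obtain ⟨c, hc⟩ := hgen m
  refine ⟨c, (mem_SUnit_iff S₁ _).mpr fun v hv => ?_⟩
  rw [ord_mul, ord_pow, hc v hv, hk v hv]
  change (p : ℤ) * k v + p * (if v ∈ S₁ then 0 else - k v) = 0
  rw [if_neg hv]; ring

end ECaux

open ECaux

variable {p : ℕ} [Fact p.Prime] {ζ : 𝓞 F}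

/-- **(EC)** -/
theorem EC (hζ : IsPrimitiveRoot ζ p) (S : Finset (Pl F)) :
    (CS p S).index ≠ 0 ∧
      (pows F p).relIndex (VS p S) = (CS p S).index * p ^ (S.card + rI F) := by
  classical
  have hpp : p.Prime := Fact.out
  obtain ⟨G, -, hG⟩ := exists_gen_disjoint (∅ : Finset (Pl F))
  set S₁ := S ∪ G with hS₁
  have hgen : Gen S₁ := hG.mono Finset.subset_union_right
  set Δ := S₁ \ S with hΔ
  have hcard : S₁.card = S.card + Δ.card := by
    rw [hΔ, Finset.card_sdiff_of_subset Finset.subset_union_left]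
    have := Finset.card_le_card (Finset.subset_union_left : S ⊆ S ∪ G)
    rw [← hS₁] at this ⊢
    omega
  set A := SUnit F S₁ with hA
  have hmemΔ : ∀ v, v ∈ Δ ↔ v ∈ S₁ ∧ v ∉ S := fun v => Finset.mem_sdiff
  -- (1) the kernel of `phi` on `A`
  have h1 : (phi p Δ).ker ⊓ A = VS p S ⊓ A := by
    ext a
    simp only [Subgroup.mem_inf, MonoidHom.mem_ker]
    refine and_congr_left fun ha => ?_
    rw [hA, mem_SUnit_iff] at ha
    constructor
    · intro h w hw
      by_cases hw1 : w ∈ S₁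
      · have h2 := phi_apply (p := p) Δ a w
        rw [h, if_pos ((hmemΔ w).mpr ⟨hw1, hw⟩)] at h2
        exact (ZMod.intCast_zmod_eq_zero_iff_dvd _ p).mp h2.symm
      · rw [ha w hw1]; exact dvd_zero _
    · intro h
      apply Multiplicative.toAdd.injective
      ext v
      rw [phi_apply]
      split_ifs with hv
      · exact (ZMod.intCast_zmod_eq_zero_iff_dvd _ p).mpr (h v ((hmemΔ v).mp hv).2)
      · rfl
  -- (2) the image of `A`
  have h2 : Nat.card (A.map (phi p Δ)) = Nat.card ((CS p S ⊓ WW p Δ : AddSubgroup _)) := by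
    refine Nat.card_congr (Equiv.subtypeEquiv Multiplicative.toAdd fun m => ?_)
    constructor
    · rintro ⟨a, ha, rfl⟩
      have ha' := (mem_SUnit_iff S₁ a).mp ha
      refine ⟨⟨a, fun v hv => ?_⟩, (mem_WW Δ _).mpr fun v hv => ?_⟩
      · rw [phi_apply]
        split_ifs with h
        · rfl
        · have : v ∉ S₁ := fun h1 => h ((hmemΔ v).mpr ⟨h1, hv⟩)
          rw [ha' v this]; simp
      · rw [phi_apply, if_neg hv]
    · rintro ⟨⟨x, hx⟩, hW⟩
      replace hW := (mem_WW Δ _).mp hW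
      obtain ⟨c, hc⟩ := exists_sunit (p := p) hgen x (fun v hv => by
        have hvS : v ∉ S := fun h => hv (Finset.mem_union_left _ h)
        have hvΔ : v ∉ Δ := fun h => hv ((hmemΔ v).mp h).1
        have := hx v hvS
        rw [hW v hvΔ] at this
        exact (ZMod.intCast_zmod_eq_zero_iff_dvd _ p).mp this.symm)
      refine ⟨x * c ^ p, hc, ?_⟩
      apply Multiplicative.toAdd.injective
      ext v
      rw [phi_apply]
      split_ifs with hv
      · rw [hx v ((hmemΔ v).mp hv).2, ord_mul, ord_pow]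
        push_cast
        simp
      · exact (hW v hv).symm
  -- (3) `CS ⊔ WW = ⊤`
  have h3 : CS p S ⊔ WW p Δ = ⊤ := by
    rw [eq_top_iff]
    intro m _
    -- an integral lift of `m`
    let m' : Pl F →₀ ℤ := m.mapRange (fun a => (a.val : ℤ)) (by simp)
    obtain ⟨c, hc⟩ := hgen m'
    have hmc : m - divP p c + Finsupp.filter (· ∈ S) (divP p c - m) ∈ WW p Δ := by
      rw [mem_WW]
      intro v hv
      rw [Finsupp.add_apply, Finsupp.sub_apply, Finsupp.filter_apply, Finsupp.sub_apply, divP_apply]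
      split_ifs with hvS
      · ring
      · have hv1 : v ∉ S₁ := fun h => hv ((hmemΔ v).mpr ⟨h, hvS⟩)
        rw [hc v hv1]
        simp [m']
    have hcs : divP p c - Finsupp.filter (· ∈ S) (divP p c - m) ∈ CS p S := by
      refine ⟨c, fun v hv => ?_⟩
      rw [Finsupp.sub_apply, Finsupp.filter_apply, if_neg hv, divP_apply, sub_zero]
    have : m = (divP p c - Finsupp.filter (· ∈ S) (divP p c - m)) +
        (m - divP p c + Finsupp.filter (· ∈ S) (divP p c - m)) := by abel
    rw [this]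
    exact AddSubgroup.add_mem_sup hcs hmc
  -- counting
  have c1 : (CS p S).index = (CS p S).relIndex (WW p Δ) := by
    rw [← AddSubgroup.relIndex_top_right, ← h3, AddSubgroup.relIndex_sup_left]
  have c2 : Nat.card ((CS p S ⊓ WW p Δ : AddSubgroup _)) * (CS p S).relIndex (WW p Δ) = p ^ Δ.card := by
    rw [← card_WW (p := p) Δ, ← AddSubgroup.relIndex_bot_left, ← AddSubgroup.relIndex_bot_left,
      ← AddSubgroup.inf_relIndex_right (CS p S)]
    exact AddSubgroup.relIndex_mul_relIndex _ _ _ bot_le inf_le_right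
  have c3 : (VS p S).relIndex A = Nat.card (A.map (phi p Δ)) := by
    rw [← Subgroup.relIndex_ker, ← Subgroup.inf_relIndex_right, ← h1, Subgroup.inf_relIndex_right]
  have c4 : (pows F p).relIndex (VS p S ⊓ A) * (VS p S).relIndex A = p ^ (S₁.card + rI F) := by
    rw [← relIndex_pows_SUnit hζ S₁, ← Subgroup.inf_relIndex_right (VS p S) A,
      ← Subgroup.inf_relIndex_right (pows F p) (VS p S ⊓ A),
      ← Subgroup.inf_relIndex_right (pows F p) (SUnit F S₁)]
    have e : pows F p ⊓ (VS p S ⊓ A) = pows F p ⊓ A := by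
      ext a
      simp only [Subgroup.mem_inf]
      constructor
      · rintro ⟨h, -, h'⟩; exact ⟨h, h'⟩
      · rintro ⟨⟨y, rfl⟩, h'⟩
        refine ⟨⟨y, rfl⟩, fun w _ => ?_, h'⟩
        simp only [powMonoidHom_apply, ord_pow]
        exact dvd_mul_right _ _
    rw [e]
    exact Subgroup.relIndex_mul_relIndex _ _ _ (inf_le_inf_right A (fun a ha => by
      obtain ⟨y, rfl⟩ := ha
      intro w _
      simp only [powMonoidHom_apply, ord_pow]
      exact dvd_mul_right _ _)) inf_le_right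
  have c5 : (pows F p).relIndex (VS p S) = (pows F p).relIndex (VS p S ⊓ A) := by
    have e : VS p S = pows F p ⊔ (VS p S ⊓ A) := by
      apply le_antisymm
      · intro x hx
        obtain ⟨c, hc⟩ := exists_sunit (p := p) hgen x (fun v hv =>
          hx v (fun h => hv (Finset.mem_union_left _ h)))
        have hx' : x = (c⁻¹) ^ p * (x * c ^ p) := by
          rw [inv_pow, mul_comm x, inv_mul_cancel_left]
        rw [hx']
        refine Subgroup.mul_mem_sup ⟨c⁻¹, rfl⟩ ⟨fun w hw => ?_, hc⟩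
        rw [ord_mul, ord_pow]
        exact dvd_add (hx w hw) (dvd_mul_right _ _)
      · refine sup_le (fun a ha => ?_) inf_le_left
        obtain ⟨y, rfl⟩ := ha
        intro w _
        simp only [powMonoidHom_apply, ord_pow]
        exact dvd_mul_right _ _
    conv_lhs => rw [e]
    exact Subgroup.relIndex_sup_left _ _
  set ρ := Nat.card (A.map (phi p Δ)) with hρ
  rw [← h2] at c2
  have hρ0 : 0 < ρ := by
    rcases Nat.eq_zero_or_pos ρ with h | h
    · rw [h, zero_mul] at c2
      exact absurd c2 (pow_pos hpp.pos _).ne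
    · exact h
  refine ⟨?_, ?_⟩
  · rw [c1]
    intro h
    rw [h, mul_zero] at c2
    exact (pow_pos hpp.pos _).ne c2
  · rw [c5, c1]
    rw [c3] at c4
    apply Nat.eq_of_mul_eq_mul_right hρ0
    rw [c4, hcard, mul_assoc, mul_comm _ ρ, ← mul_assoc, mul_comm _ ρ, c2, ← pow_add]
    congr 1
    omega

end Fermat.Agent.S55.C
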