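import Fermat.Agent.S55.C.Count

/-!
# S55, layer C: the local norm groups `Nloc p Z v = N(Zˣ) · lp v`, `Z/F` Galois of degree `p`.

Keys: `S55/C-NORM-a` (`index_Nloc`, `index_NlocS`), `S55/C-NORM-b` (inert and tamely ramified places).
-/

set_option autoImplicit false

namespace Fermat.Agent.S55.C

open IsDedekindDomain NumberField Fermat.Agent.S14

variable {F Z : Type*} [Field F] [NumberField F] [Field Z] [NumberField Z] [Algebra F Z]
  {p : ℕ} [Fact p.Prime] {ζ : 𝓞 F}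

theorem lp_le_Nloc (v : Pl F) : lp p v ≤ Nloc p Z v := le_sup_right

theorem range_normU_le_Nloc (v : Pl F) : (normU : Zˣ →* Fˣ).range ≤ Nloc p Z v := le_sup_left

theorem mem_NlocS_iff (S : Finset (Pl F)) (x : Fˣ) :
    x ∈ NlocS p Z S ↔ ∀ v ∈ S, x ∈ Nloc p Z v := by
  simp [NlocS, Subgroup.mem_iInf]

theorem lpS_le_NlocS (S : Finset (Pl F)) : lpS p S ≤ NlocS p Z S :=
  fun _ hx => (mem_NlocS_iff S _).mpr fun v hv => lp_le_Nloc v ((mem_lpS_iff S _).mp hx v hv)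

theorem range_normU_le_NlocS (S : Finset (Pl F)) : (normU : Zˣ →* Fˣ).range ≤ NlocS p Z S :=
  fun _ hx => (mem_NlocS_iff S _).mpr fun v _ => range_normU_le_Nloc v hx

/-! ### key S55/C-NORM-a -/

/-- the index of `Nloc` is a power of `p` (finite by `index_lp_le`; the quotient is killed by `p`
since `pows F p ≤ lp p v`). -/
theorem index_Nloc (hζ : IsPrimitiveRoot ζ p) (v : Pl F) : ∃ k : ℕ, (Nloc p Z v).index = p ^ k := by
  have h0 : (Nloc p Z v).index ≠ 0 := fun h =>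
    (index_lp_le hζ v).1 (Nat.eq_zero_of_zero_dvd (h ▸ Subgroup.index_dvd_of_le (lp_le_Nloc v)))
  have : (Nloc p Z v).FiniteIndex := ⟨h0⟩
  have hP : IsPGroup p (Fˣ ⧸ Nloc p Z v) := by
    intro g
    refine ⟨1, ?_⟩
    obtain ⟨x, rfl⟩ := QuotientGroup.mk_surjective g
    rw [pow_one, ← QuotientGroup.mk_pow, QuotientGroup.eq_one_iff]
    exact lp_le_Nloc v (pows_le_lp v ⟨x, rfl⟩)
  rw [Subgroup.index_eq_card]
  exact IsPGroup.iff_card.mp hP

/-- from `index_iInf_eq` with `n = sup of the levels` and `Ulev_anti`. -/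
theorem index_NlocS (S : Finset (Pl F)) :
    (NlocS p Z S).index = ∏ v ∈ S, (Nloc p Z v).index :=
  index_iInf_eq S (Nloc p Z) (S.sup (lev p)) fun v hv =>
    ((Ulev_anti v (Finset.le_sup (f := lev p) hv)).trans (Ulev_le_lp v)).trans (lp_le_Nloc v)

/-! ### key S55/C-NORM-b -/

/-- every element of `Nloc` is `N(y) * u` with `u ∈ Ulev v (lev p v)` (because `c ^ p = N(c)`,
`hdeg`). -/
theorem mem_Nloc_iff (hdeg : Module.finrank F Z = p) (v : Pl F) (x : Fˣ) :
    x ∈ Nloc p Z v ↔ ∃ (y : Zˣ) (u : Fˣ), u ∈ Ulev v (lev p v) ∧ x = normU y * u := by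
  constructor
  · intro hx
    obtain ⟨a, ⟨y, rfl⟩, b, hb, rfl⟩ := Subgroup.mem_sup.mp hx
    obtain ⟨c, ⟨d, rfl⟩, u, hu, rfl⟩ := Subgroup.mem_sup.mp hb
    refine ⟨y * upU d, u, hu, ?_⟩
    have h1 : normU (upU d : Zˣ) = d ^ p := by
      ext
      simp [normU, upU, Algebra.norm_algebraMap, hdeg]
    rw [map_mul, h1, powMonoidHom_apply, mul_assoc]
  · rintro ⟨y, u, hu, rfl⟩
    exact mul_mem (range_normU_le_Nloc v ⟨y, rfl⟩) (lp_le_Nloc v (Ulev_le_lp v hu))

/-- inert places: local norms have valuation divisible by `p` (`dvd_ord_normU_of_inert`). -/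
theorem dvd_ord_of_mem_Nloc [IsGalois F Z] (hdeg : Module.finrank F Z = p) (v : Pl F)
    (h : ¬ IsSplit Z v) (hu : IsUnram Z v) (x : Fˣ) (hx : x ∈ Nloc p Z v) : (p : ℤ) ∣ ord v x := by
  obtain ⟨y, u, hu', rfl⟩ := (mem_Nloc_iff hdeg v x).mp hx
  rw [ord_mul, ord_eq_zero_of_mem_Ulev hu', add_zero]
  exact dvd_ord_normU_of_inert hdeg v h hu y

/-- tamely ramified places: local norms which are units have trivial residue symbol
(`mem_Nloc_iff`, `res_normU_of_ram`, `lp_tame`). -/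
theorem res_eq_zero_of_mem_Nloc [IsGalois F Z] (hζ : IsPrimitiveRoot ζ p)
    (hdeg : Module.finrank F Z = p) (v : Pl F)
    (hv : Tame p v) (hu : ¬ IsUnram Z v) (x : Fˣ) (hx : x ∈ Nloc p Z v) (h0 : ord v x = 0) :
    res p ζ v x = 0 := by
  obtain ⟨y, u, hu', rfl⟩ := (mem_Nloc_iff hdeg v x).mp hx
  have h1 : u ∈ tamePow p ζ v := lp_tame hζ hv ▸ Ulev_le_lp v hu'
  rw [ord_mul, ord_eq_zero_of_mem_Ulev hu', add_zero] at h0
  rw [res_mul, res_normU_of_ram hζ hdeg v hv hu y h0, h1.2, add_zero]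

/-- the local first inequality, given the wildly ramified case `hlow` (layer B).
(inert: `exists_ord_eq` gives `x` with `ord v x = 1`; tamely ramified: `exists_ord_res_eq` or
`exists_res_eq` gives a unit with `res ≠ 0`.) -/
theorem Nloc_ne_top [IsGalois F Z] (hζ : IsPrimitiveRoot ζ p) (hdeg : Module.finrank F Z = p)
    (hlow : ∀ v : Pl F, ¬ Tame p v → ¬ IsUnram Z v → Nloc p Z v ≠ ⊤)
    (v : Pl F) (h : ¬ IsSplit Z v) : Nloc p Z v ≠ ⊤ := by
  have hp := (Fact.out : p.Prime)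
  by_cases hu : IsUnram Z v
  · intro htop
    obtain ⟨x, hx⟩ := exists_ord_eq {v} (fun _ => (1 : ℤ))
    have h1 := dvd_ord_of_mem_Nloc hdeg v h hu x (htop ▸ Subgroup.mem_top x)
    rw [hx v (Finset.mem_singleton_self v)] at h1
    have h2 := Int.natCast_dvd_natCast.mp (by simpa using h1 : (p : ℤ) ∣ ((1 : ℕ) : ℤ))
    exact hp.one_lt.ne' (Nat.dvd_one.mp h2)
  · by_cases hv : Tame p v
    · intro htop
      obtain ⟨x, a, hxa, ha, hres⟩ := exists_res_eq hζ hv (1 : ZMod p)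
      have h1 := res_eq_zero_of_mem_Nloc hζ hdeg v hv hu x (htop ▸ Subgroup.mem_top x)
        ((ord_eq_zero_iff v x a hxa).mpr ha)
      rw [hres] at h1
      exact one_ne_zero h1
    · exact hlow v hv hu

end Fermat.Agent.S55.C
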