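import Fermat.Agent.S55.C.Defs

/-!
# S55, layer C: `S`-units modulo `p`-th powers in a number field `F ∋ ζ_p`.
-/

set_option autoImplicit false

namespace Fermat.Agent.S55.C

open IsDedekindDomain NumberField Fermat.Agent.S14

variable {F : Type*} [Field F] [NumberField F] {p : ℕ} [Fact p.Prime] {ζ : 𝓞 F}

theorem two_mul_rI (hp : p ≠ 2) (hζ : IsPrimitiveRoot ζ p) : 2 * rI F = Module.finrank ℚ F :=
  T1Index.two_mul_card_infinitePlace F hp (ζ : F) (kum_prim hζ)

theorem rank_add_one : NumberField.Units.rank F + 1 = rI F := by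
  have : 0 < Fintype.card (InfinitePlace F) := Fintype.card_pos
  rw [NumberField.Units.rank, rI]
  omega

namespace UPAux

theorem card_ker (hζ : IsPrimitiveRoot ζ p) (S : Finset (Pl F)) :
    Nat.card (zsmulAddGroupHom (p : ℤ) : Additive (SUnit F S) →+ Additive (SUnit F S)).ker = p := by
  have hp' : p.Prime := Fact.out
  have : NeZero p := ⟨hp'.ne_zero⟩
  refine Eq.trans (Nat.card_congr (β := rootsOfUnity p F)
    { toFun := fun x => ⟨((Additive.toMul x.1 : SUnit F S) : Fˣ), ?_⟩
      invFun := fun z => ⟨Additive.ofMul ⟨z.1, ?_⟩, ?_⟩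
      left_inv := fun x => rfl
      right_inv := fun z => rfl })
    (IsPrimitiveRoot.card_rootsOfUnity (kum_prim hζ))
  · have h := x.2
    rw [AddMonoidHom.mem_ker] at h
    rw [mem_rootsOfUnity]
    have h2 : (Additive.toMul x.1 : SUnit F S) ^ p = 1 := by
      have h3 : (p : ℤ) • x.1 = 0 := h
      have h4 := congrArg Additive.toMul h3
      rw [toMul_zsmul, zpow_natCast] at h4
      exact h4
    exact_mod_cast congrArg (Subtype.val) h2
  · apply mem_SUnit_of_pow S z.1 hp'.ne_zero
    rw [(mem_rootsOfUnity _ _).mp z.2]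
    exact one_mem _
  · rw [AddMonoidHom.mem_ker]
    apply Additive.toMul.injective
    apply Subtype.ext
    simpa using (mem_rootsOfUnity _ _).mp z.2

end UPAux

open UPAux

/-- `#(F_S / F_S^p) = p ^ (#S + r)`, `r` the number of infinite places -/
theorem card_SUnit_mod_pow (hζ : IsPrimitiveRoot ζ p) (S : Finset (Pl F)) :
    Nat.card (SUnit F S ⧸ (powMonoidHom p : SUnit F S →* SUnit F S).range) =
      p ^ (S.card + rI F) := by
  have h := card_quot_p p (Additive (SUnit F S))
  rw [card_ker hζ, sunit_finrank, ← pow_succ, ← AddSubgroup.index_eq_card] at h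
  rw [← Subgroup.index_eq_card, ← rank_add_one (F := F)]
  have e : Subgroup.toAddSubgroup (powMonoidHom p : SUnit F S →* SUnit F S).range =
      (zsmulAddGroupHom (p : ℤ) : Additive (SUnit F S) →+ Additive (SUnit F S)).range := by
    ext x
    constructor
    · rintro ⟨y, hy⟩
      refine ⟨Additive.ofMul y, ?_⟩
      apply Additive.toMul.injective
      simpa using hy
    · rintro ⟨y, hy⟩
      refine ⟨Additive.toMul y, ?_⟩
      have := congrArg Additive.toMul hy
      simpa using this
  rw [← e] at h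
  rw [show (powMonoidHom p : SUnit F S →* SUnit F S).range.index =
    (Subgroup.toAddSubgroup (powMonoidHom p : SUnit F S →* SUnit F S).range).index from rfl, h]
  congr 1
  ring

/-- the same as a relative index inside `Fˣ` -/
theorem relIndex_pows_SUnit (hζ : IsPrimitiveRoot ζ p) (S : Finset (Pl F)) :
    (pows F p).relIndex (SUnit F S) = p ^ (S.card + rI F) := by
  have hp' : p.Prime := Fact.out
  rw [← card_SUnit_mod_pow hζ S, ← Subgroup.index_eq_card, Subgroup.relIndex]
  congr 1
  ext x
  rw [Subgroup.mem_subgroupOf]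
  constructor
  · rintro ⟨y, hy⟩
    have hy' : y ^ p = (x : Fˣ) := hy
    have hyS : y ∈ SUnit F S := mem_SUnit_of_pow S y hp'.ne_zero (by rw [hy']; exact x.2)
    exact ⟨⟨y, hyS⟩, Subtype.ext hy'⟩
  · rintro ⟨y, hy⟩
    exact ⟨y, congrArg Subtype.val hy⟩

end Fermat.Agent.S55.C
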