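import Fermat.Agent.S55.C.DL
import Fermat.Agent.S55.C.UP

/-!
# S55, layer C: choice of the auxiliary set `T` (generalisation of `S14.exists_T`, one element).
-/

set_option autoImplicit false

namespace Fermat.Agent.S55.C

open IsDedekindDomain NumberField Fermat.Agent.S14

variable {F : Type*} [Field F] [NumberField F] {p : ℕ} [Fact p.Prime] {ζ : 𝓞 F}

namespace TSel

omit [NumberField F] in
/-- reduce an integer exponent modulo `p` -/
theorem zpow_eq (w : Fˣ) (a : ℤ) : ∃ e : Fˣ, w ^ a = w ^ ((a : ZMod p).val) * e ^ p := by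
  refine ⟨w ^ (a / p), ?_⟩
  have h1 : (((a : ZMod p).val : ℕ) : ℤ) = a % p := ZMod.val_intCast a
  rw [← zpow_natCast w, h1, ← zpow_natCast (w ^ (a / p)) p, ← zpow_mul, ← zpow_add,
    mul_comm, Int.emod_add_mul_ediv]

/-- counting: if the common kernel of the symbols at `T` on `F_S` is contained in
`⟨w₁⟩ Fˣᵖ` then `#S + r ≤ #T + 1`. -/
theorem card_le (hζ : IsPrimitiveRoot ζ p) (S T : Finset (Pl F)) (w₁ : Fˣ)
    (h₁ : w₁ ∈ SUnit F S)
    (hsurj : ∀ ρ : Pl F → ZMod p, ∃ x ∈ SUnit F S, ∀ t ∈ T, res p ζ t x = ρ t)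
    (hall : ∀ x ∈ SUnit F S, (∀ t ∈ T, res p ζ t x = 0) →
      x ∈ Subgroup.closure ({w₁} : Set Fˣ) ⊔ pows F p) :
    S.card + rI F ≤ T.card + 1 := by
  classical
  have hpp : p.Prime := Fact.out
  have : NeZero p := ⟨hpp.ne_zero⟩
  choose X hXS hX using hsurj
  let ext : (T → ZMod p) → (Pl F → ZMod p) := fun ρ v => if h : v ∈ T then ρ ⟨v, h⟩ else 0
  let f : (T → ZMod p) × ZMod p →
      SUnit F S ⧸ (powMonoidHom p : SUnit F S →* SUnit F S).range := fun a =>
    QuotientGroup.mk (⟨X (ext a.1), hXS _⟩ * ⟨w₁, h₁⟩ ^ a.2.val)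
  have hf : Function.Surjective f := by
    intro q
    obtain ⟨⟨x, hx⟩, rfl⟩ := QuotientGroup.mk_surjective q
    set ρ : T → ZMod p := fun t => res p ζ t.1 x with hρ
    have hy : x * (X (ext ρ))⁻¹ ∈ Subgroup.closure ({w₁} : Set Fˣ) ⊔ pows F p := by
      refine hall _ (mul_mem hx (inv_mem (hXS _))) fun t ht => ?_
      rw [res_mul, res_inv, hX (ext ρ) t ht]
      simp [ext, ht, hρ]
    obtain ⟨y, hy1, _, ⟨d, rfl⟩, hyd⟩ := Subgroup.mem_sup.mp hy
    obtain ⟨a, rfl⟩ := Subgroup.mem_closure_singleton.mp hy1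
    obtain ⟨e₁, he₁⟩ := zpow_eq (p := p) w₁ a
    simp only [powMonoidHom_apply] at hyd
    refine ⟨(ρ, (a : ZMod p)), ?_⟩
    have hkey : x = X (ext ρ) * w₁ ^ (a : ZMod p).val * (e₁ * d) ^ p := by
      have : x = X (ext ρ) * (w₁ ^ a * d ^ p) := by
        rw [hyd, mul_comm x, mul_inv_cancel_left]
      rw [this, he₁, mul_pow]
      simp only [mul_assoc]
    have hE : e₁ * d ∈ SUnit F S := by
      apply mem_SUnit_of_pow S _ hpp.ne_zero
      have : (e₁ * d) ^ p = (X (ext ρ) * w₁ ^ (a : ZMod p).val)⁻¹ * x := by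
        rw [hkey]; group
      rw [this]
      exact mul_mem (inv_mem (mul_mem (hXS _) (pow_mem h₁ _))) hx
    simp only [f]
    rw [QuotientGroup.eq]
    refine ⟨⟨e₁ * d, hE⟩, ?_⟩
    apply Subtype.ext
    simp only [powMonoidHom_apply, Subgroup.coe_pow, Subgroup.coe_mul, Subgroup.coe_inv]
    conv_rhs => rw [hkey]
    group
  have hcard := Nat.card_le_card_of_surjective f hf
  rw [card_SUnit_mod_pow hζ S] at hcard
  have h2 : Nat.card ((T → ZMod p) × ZMod p) = p ^ (T.card + 1) := by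
    rw [Nat.card_prod, Nat.card_fun, Nat.card_zmod]
    simp only [Nat.card_eq_fintype_card, Fintype.card_coe]
    ring
  rw [h2] at hcard
  exact (Nat.pow_le_pow_iff_right hpp.one_lt).mp hcard

end TSel

theorem rI_pos : 0 < rI F := Fintype.card_pos

open TSel in
/-- Given an `S`-unit `w₁` there is a set `T` of `#S + r - 1` tame places outside `S ∪ B` at which `w₁` is a
`p`-th power residue and such that the `S`-units surject onto the residue symbols at `T`. -/
theorem exists_T (hp : p ≠ 2) (hζ : IsPrimitiveRoot ζ p) (S B : Finset (Pl F))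
    (w₁ : Fˣ) (h₁ : w₁ ∈ SUnit F S) :
    ∃ T : Finset (Pl F), Disjoint S T ∧ Disjoint B T ∧ T.card + 1 = S.card + rI F ∧
      (∀ t ∈ T, Tame p t ∧ res p ζ t w₁ = 0) ∧
      (∀ ρ : Pl F → ZMod p, ∃ x ∈ SUnit F S, ∀ t ∈ T, res p ζ t x = ρ t) := by
  classical
  have key : ∀ k : ℕ, k + 1 ≤ S.card + rI F →
      ∃ T : Finset (Pl F), Disjoint S T ∧ Disjoint B T ∧ T.card = k ∧
      (∀ t ∈ T, Tame p t ∧ res p ζ t w₁ = 0) ∧
      (∀ ρ : Pl F → ZMod p, ∃ x ∈ SUnit F S, ∀ t ∈ T, res p ζ t x = ρ t) := by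
    intro k
    induction k with
    | zero =>
      intro _
      exact ⟨∅, by simp, by simp, rfl, by simp, fun _ => ⟨1, one_mem _, by simp⟩⟩
    | succ k ih =>
      intro hk
      obtain ⟨T, hST, hBT, hcard, hT, hsurj⟩ := ih (by omega)
      -- an element of the kernel outside `⟨w₁⟩ Fˣᵖ`
      obtain ⟨u, huS, huT, hu⟩ : ∃ u ∈ SUnit F S, (∀ t ∈ T, res p ζ t u = 0) ∧
          u ∉ Subgroup.closure ({w₁} : Set Fˣ) ⊔ pows F p := by
        by_contra hcon
        push Not at hcon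
        have := card_le hζ S T w₁ h₁ hsurj hcon
        omega
      obtain ⟨t, htB, htame, hus, -, hres⟩ := DL hp hζ (S ∪ B ∪ T) {w₁} u (by
        rw [Finset.coe_singleton]; exact hu)
      simp only [Finset.mem_union, not_or] at htB
      obtain ⟨⟨htS, htB⟩, htT⟩ := htB
      refine ⟨insert t T, ?_, ?_, ?_, ?_, ?_⟩
      · rw [Finset.disjoint_insert_right]; exact ⟨htS, hST⟩
      · rw [Finset.disjoint_insert_right]; exact ⟨htB, hBT⟩
      · rw [Finset.card_insert_of_notMem htT, hcard]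
      · intro t' ht'
        rcases Finset.mem_insert.mp ht' with rfl | h
        · exact ⟨htame, (hus w₁ (by simp)).2⟩
        · exact hT t' h
      · intro ρ
        obtain ⟨x₀, hx₀S, hx₀⟩ := hsurj ρ
        set m : ZMod p := (ρ t - res p ζ t x₀) * (res p ζ t u)⁻¹ with hm
        refine ⟨x₀ * u ^ m.val, mul_mem hx₀S (pow_mem huS _), fun t' ht' => ?_⟩
        rw [res_mul, res_pow, ZMod.natCast_zmod_val]
        rcases Finset.mem_insert.mp ht' with rfl | h
        · rw [hm]; field_simp; ring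
        · rw [hx₀ t' h, huT t' h]; ring
  have h2 : 0 < rI F := rI_pos
  obtain ⟨T, a, b, c, d, e⟩ := key (S.card + rI F - 1) (by omega)
  exact ⟨T, a, b, by omega, d, e⟩

end Fermat.Agent.S55.C
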