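import Fermat.Agent.S55.C.T2
import Fermat.Agent.S55.C.TSel
import Fermat.Agent.S55.C.Norm

/-!
# S55, layer C: the deliverables K1 - K4.

`F` number field, `ζ ∈ 𝓞 F` primitive `p`-th root of unity, `p` odd, `Z/F` Galois of degree `p`.
`hlow` (= LOW of the blueprint, delivered by layer B):
`∀ v, ¬ Tame p v → ¬ IsUnram Z v → Nloc p Z v ≠ ⊤`.
-/

set_option autoImplicit false
set_option linter.unusedSectionVars false

namespace Fermat.Agent.S55.C

open IsDedekindDomain NumberField Fermat.Agent.S14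

variable {F Z : Type*} [Field F] [NumberField F] [Field Z] [NumberField Z] [Algebra F Z]
  [IsGalois F Z] {p : ℕ} [Fact p.Prime] {ζ : 𝓞 F}

/-- The two inequalities for a suitable large set of places. -/
theorem core (hp : p ≠ 2) (hζ : IsPrimitiveRoot ζ p) (hdeg : Module.finrank F Z = p)
    (B : Finset (Pl F)) :
    ∃ (S S' NS : Finset (Pl F)) (SZ' : Finset (Pl Z)), B ⊆ S ∧ S ⊆ S' ∧
      (∀ v, ¬ Tame p v → v ∈ S) ∧ (∀ v ∉ S, IsUnram Z v) ∧ (∀ v ∈ S', v ∉ S → IsSplit Z v) ∧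
      (∀ w, w ∈ SZ' ↔ below w ∈ S') ∧ (∀ v, v ∈ NS ↔ v ∈ S ∧ ¬ IsSplit Z v) ∧
      (NlocS p Z S ⊔ SUnit F S').index ≠ 0 ∧ (NlocS p Z S ⊔ SUnit F S').index ≤ p ∧
      ((SUnit Z SZ').map normU).relIndex (SUnit F S') * p = p ^ NS.card := by
  classical
  have hpp : p.Prime := Fact.out
  obtain ⟨z, hz, hsf⟩ := exists_kummer (Z := Z) hζ hdeg
  obtain ⟨G, -, hG⟩ := exists_gen_disjoint (∅ : Finset (Pl F))
  set S : Finset (Pl F) := B ∪ (Dens.finite_not_tame (K := F) p).toFinset ∪ (ord_support_finite z).toFinset ∪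
    (finite_not_isUnram (K := F) (Z := Z)).toFinset ∪ G with hS
  have hBS : B ⊆ S := by
    intro v hv; simp only [hS, Finset.mem_union]; tauto
  have hwild : ∀ v : Pl F, ¬ Tame p v → v ∈ S := by
    intro v hv
    have : v ∈ (Dens.finite_not_tame (K := F) p).toFinset := by simpa using hv
    simp only [hS, Finset.mem_union]; tauto
  have hsupp : ∀ v ∉ S, ord v z = 0 := by
    intro v hv
    by_contra h
    have : v ∈ (ord_support_finite z).toFinset := by simpa using h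
    apply hv
    simp only [hS, Finset.mem_union]; tauto
  have hunr : ∀ v ∉ S, IsUnram Z v := by
    intro v hv
    by_contra h
    have : v ∈ (finite_not_isUnram (K := F) (Z := Z)).toFinset := by simpa using h
    apply hv
    simp only [hS, Finset.mem_union]; tauto
  have hgen : Gen S := hG.mono (by intro v hv; simp only [hS, Finset.mem_union]; tauto)
  have hzS : z ∈ SUnit F S := (mem_SUnit_iff S z).mpr hsupp
  obtain ⟨T, hST, -, hcard, hT, hsurj⟩ := exists_T hp hζ S ∅ z hzS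
  have hsplitT : ∀ v ∈ T, IsSplit Z v := by
    intro v hv
    have hvS : v ∉ S := fun h => (Finset.disjoint_left.mp hST) h hv
    exact D2 z hζ hz v (hT v hv).1 ⟨by rw [hsupp v hvS]; exact dvd_zero _, (hT v hv).2⟩
  let S' := S ∪ T
  let SZ' : Finset (Pl Z) := S'.biUnion fun v => (fiber_finite (Z := Z) v).toFinset
  have hSZ : ∀ w : Pl Z, w ∈ SZ' ↔ below w ∈ S' := by
    intro w
    simp only [SZ', Finset.mem_biUnion, Set.Finite.mem_toFinset, Set.mem_ofPred_eq]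
    constructor
    · rintro ⟨v, hv, rfl⟩; exact hv
    · intro h; exact ⟨_, h, rfl⟩
  let NS : Finset (Pl F) := S.filter fun v => ¬ IsSplit Z v
  have hNS : ∀ v, v ∈ NS ↔ v ∈ S ∧ ¬ IsSplit Z v := fun v => by simp [NS]
  have hNS' : ∀ v, v ∈ NS ↔ v ∈ S' ∧ ¬ IsSplit Z v := by
    intro v
    rw [hNS]
    constructor
    · rintro ⟨h1, h2⟩; exact ⟨Finset.mem_union_left _ h1, h2⟩
    · rintro ⟨h1, h2⟩
      rcases Finset.mem_union.mp h1 with h | h
      · exact ⟨h, h2⟩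
      · exact absurd (hsplitT v h) h2
  obtain ⟨h0, hle⟩ := T2 hp hζ S T S' (fun v => Finset.mem_union) hwild hgen hST hsurj
  have hle' : (lpS p S ⊔ SUnit F S').index ≤ p := by
    rw [← hcard, pow_succ, mul_comm (p ^ T.card)] at hle
    exact Nat.le_of_mul_le_mul_right hle (pow_pos hpp.pos _)
  have hdvd : (NlocS p Z S ⊔ SUnit F S').index ∣ (lpS p S ⊔ SUnit F S').index :=
    Subgroup.index_dvd_of_le (sup_le_sup_right (lpS_le_NlocS S) _)
  refine ⟨S, S', NS, SZ', hBS, Finset.subset_union_left, hwild, hunr, ?_, hSZ, hNS, ?_, ?_, ?_⟩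
  · intro v hv hvS
    exact hsplitT v ((Finset.mem_union.mp hv).resolve_left hvS)
  · exact fun h => h0 (Nat.eq_zero_of_zero_dvd (h ▸ hdvd))
  · exact (Nat.le_of_dvd (Nat.pos_of_ne_zero h0) hdvd).trans hle'
  · exact T1_index hp hζ hdeg S' SZ' hSZ
      (fun v hv => hunr v (fun h => hv (Finset.mem_union_left _ h)))
      (hgen.mono Finset.subset_union_left) NS hNS'


/-- consequence of `core`: the bound for the index of `NlocS`. -/
theorem index_le_of_core {S S' NS : Finset (Pl F)} {SZ' : Finset (Pl Z)}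
    (h0 : (NlocS p Z S ⊔ SUnit F S').index ≠ 0) (hle : (NlocS p Z S ⊔ SUnit F S').index ≤ p)
    (hidx : ((SUnit Z SZ').map normU).relIndex (SUnit F S') * p = p ^ NS.card) :
    (NlocS p Z S).index ≠ 0 ∧ (NlocS p Z S).index ≤ p ^ NS.card ∧
      (NlocS p Z S).index = (NlocS p Z S).relIndex (SUnit F S') * (NlocS p Z S ⊔ SUnit F S').index ∧
      (NlocS p Z S).relIndex (SUnit F S') ∣ ((SUnit Z SZ').map normU).relIndex (SUnit F S') := by
  have hpp : p.Prime := Fact.out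
  set H := NlocS p Z S with hH
  set U := SUnit F S' with hU
  set NZ := (SUnit Z SZ').map (normU : Zˣ →* Fˣ) with hNZ
  have hNZH : NZ ≤ H := by
    rintro _ ⟨y, -, rfl⟩
    exact range_normU_le_NlocS S ⟨y, rfl⟩
  have h1 : H.relIndex (H ⊔ U) * (H ⊔ U).index = H.index := Subgroup.relIndex_mul_index le_sup_left
  rw [Subgroup.relIndex_sup_left] at h1
  have h2 : H.relIndex U ∣ NZ.relIndex U := Subgroup.relIndex_dvd_of_le_left U hNZH
  have h3 : NZ.relIndex U ≠ 0 := by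
    intro h
    rw [h, zero_mul] at hidx
    exact (pow_pos hpp.pos _).ne hidx
  have h4 : H.relIndex U ≠ 0 := fun h => h3 (Nat.eq_zero_of_zero_dvd (h ▸ h2))
  refine ⟨?_, ?_, h1.symm, h2⟩
  · rw [← h1]; exact mul_ne_zero h4 h0
  · rw [← h1, ← hidx]
    exact Nat.mul_le_mul (Nat.le_of_dvd (Nat.pos_of_ne_zero h3) h2) hle

/-- **Global bound for the product of the local norm indices** (no hypothesis on the wild places). -/
theorem exists_index_NlocS_le (hp : p ≠ 2) (hζ : IsPrimitiveRoot ζ p)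
    (hdeg : Module.finrank F Z = p) (B : Finset (Pl F)) :
    ∃ S NS : Finset (Pl F), B ⊆ S ∧ (∀ v, v ∈ NS ↔ v ∈ S ∧ ¬ IsSplit Z v) ∧
      (NlocS p Z S).index ≠ 0 ∧ (NlocS p Z S).index ≤ p ^ NS.card := by
  obtain ⟨S, S', NS, SZ', hBS, -, -, -, -, -, hNS, h0, hle, hidx⟩ := core (Z := Z) hp hζ hdeg B
  obtain ⟨h1, h2, -, -⟩ := index_le_of_core h0 hle hidx
  exact ⟨S, NS, hBS, hNS, h1, h2⟩

/-- arithmetic: a product of numbers `≥ p` resp. `≥ 1` which is `≤ p ^ #NS`. -/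
theorem eq_of_prod_le {ι : Type*} [DecidableEq ι] (S NS : Finset ι) (hsub : NS ⊆ S) (ν : ι → ℕ) (q : ℕ)
    (hq : 0 < q) (h1 : ∀ v ∈ NS, q ≤ ν v) (h2 : ∀ v ∈ S, 1 ≤ ν v) (h : ∏ v ∈ S, ν v ≤ q ^ NS.card) :
    ∀ v ∈ S, ν v = if v ∈ NS then q else 1 := by
  have hg : ∏ v ∈ S, (if v ∈ NS then q else 1) = q ^ NS.card := by
    rw [Finset.prod_ite_mem, Finset.inter_eq_right.mpr hsub, Finset.prod_const]
  have hle : ∀ v ∈ S, (if v ∈ NS then q else 1) ≤ ν v := by
    intro v hv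
    split_ifs with hvN
    · exact h1 v hvN
    · exact h2 v hv
  by_contra hcon
  push Not at hcon
  obtain ⟨v, hv, hne⟩ := hcon
  have hlt := Finset.prod_lt_prod (s := S) (f := fun v => if v ∈ NS then q else 1) (g := ν)
    (fun i _ => by split_ifs <;> omega) hle ⟨v, hv, lt_of_le_of_ne (hle v hv) (Ne.symm hne)⟩
  rw [hg] at hlt
  omega

/-- `core` together with its consequences under `hlow`. -/
theorem core' (hp : p ≠ 2) (hζ : IsPrimitiveRoot ζ p) (hdeg : Module.finrank F Z = p)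
    (hlow : ∀ v : Pl F, ¬ Tame p v → ¬ IsUnram Z v → Nloc p Z v ≠ ⊤)
    (B : Finset (Pl F)) :
    ∃ (S S' : Finset (Pl F)), B ⊆ S ∧ S ⊆ S' ∧
      (∀ v, ¬ Tame p v → v ∈ S) ∧ (∀ v ∉ S, IsUnram Z v) ∧ (∀ v ∈ S', v ∉ S → IsSplit Z v) ∧
      (∀ v ∈ S, ¬ IsSplit Z v → (Nloc p Z v).index = p) ∧
      (∀ v ∈ S, IsSplit Z v → (Nloc p Z v).index = 1) ∧
      (NlocS p Z S ⊔ SUnit F S').index ≤ p ∧ (NlocS p Z S ⊔ SUnit F S').index ≠ 0 ∧
      NlocS p Z S ⊓ SUnit F S' ≤ (normU : Zˣ →* Fˣ).range := by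
  classical
  have hpp : p.Prime := Fact.out
  obtain ⟨S, S', NS, SZ', hBS, hSS', hwild, hunr, hsplit, hSZ, hNS, h0, hle, hidx⟩ :=
    core (Z := Z) hp hζ hdeg B
  obtain ⟨h1, h2, h3, h4⟩ := index_le_of_core h0 hle hidx
  have hν : ∀ v ∈ S, (Nloc p Z v).index = if v ∈ NS then p else 1 := by
    refine eq_of_prod_le S NS (fun v hv => ((hNS v).mp hv).1) _ p hpp.pos ?_ ?_ ?_
    · intro v hv
      obtain ⟨k, hk⟩ := index_Nloc (Z := Z) hζ v
      have hne : (Nloc p Z v).index ≠ 1 := fun h =>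
        Nloc_ne_top hζ hdeg hlow v ((hNS v).mp hv).2 (Subgroup.index_eq_one.mp h)
      rw [hk] at hne ⊢
      rcases Nat.eq_zero_or_pos k with rfl | hk0
      · simp at hne
      · exact Nat.le_self_pow hk0.ne' p
    · intro v _
      obtain ⟨k, hk⟩ := index_Nloc (Z := Z) hζ v
      rw [hk]
      exact Nat.one_le_pow _ _ hpp.pos
    · rw [← index_NlocS]; exact h2
  have hHidx : (NlocS p Z S).index = p ^ NS.card := by
    rw [index_NlocS, Finset.prod_congr rfl hν, Finset.prod_ite_mem,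
      Finset.inter_eq_right.mpr (fun v hv => ((hNS v).mp hv).1), Finset.prod_const]
  refine ⟨S, S', hBS, hSS', hwild, hunr, hsplit, ?_, ?_, hle, h0, ?_⟩
  · intro v hv hs
    rw [hν v hv, if_pos ((hNS v).mpr ⟨hv, hs⟩)]
  · intro v hv hs
    rw [hν v hv, if_neg (fun h => ((hNS v).mp h).2 hs)]
  · set H := NlocS p Z S with hH
    set U := SUnit F S' with hU
    set NZ := (SUnit Z SZ').map (normU : Zˣ →* Fˣ) with hNZ
    have hNZH : NZ ≤ H := by
      rintro _ ⟨y, -, rfl⟩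
      exact range_normU_le_NlocS S ⟨y, rfl⟩
    have h5 : NZ.relIndex U ≠ 0 := by
      intro h
      rw [h, zero_mul] at hidx
      exact (pow_pos hpp.pos _).ne hidx
    -- `H.relIndex U = NZ.relIndex U`
    have h6 : NZ.relIndex U ≤ H.relIndex U := by
      have e1 : NZ.relIndex U * p = H.relIndex U * (H ⊔ U).index := by rw [hidx, ← hHidx, h3]
      have e2 : H.relIndex U * (H ⊔ U).index ≤ H.relIndex U * p := Nat.mul_le_mul_left _ hle
      rw [← e1] at e2
      exact Nat.le_of_mul_le_mul_right e2 hpp.pos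
    have h7 : H.relIndex U = NZ.relIndex U :=
      le_antisymm (Nat.le_of_dvd (Nat.pos_of_ne_zero h5) h4) h6
    have h8 := Subgroup.relIndex_mul_relIndex (NZ ⊓ U) (H ⊓ U) U
      (inf_le_inf_right U hNZH) inf_le_right
    rw [Subgroup.inf_relIndex_right, Subgroup.inf_relIndex_right, h7] at h8
    have h9 : (NZ ⊓ U).relIndex (H ⊓ U) = 1 := by
      have := Nat.eq_of_mul_eq_mul_right (Nat.pos_of_ne_zero h5) (h8.trans (one_mul _).symm)
      exact this
    have h10 := Subgroup.relIndex_eq_one.mp h9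
    intro x hx
    obtain ⟨y, -, rfl⟩ := (h10 hx).1
    exact ⟨y, rfl⟩

/-- (K1) local norm index at the non-split places -/
theorem K1 (hp : p ≠ 2) (hζ : IsPrimitiveRoot ζ p) (hdeg : Module.finrank F Z = p)
    (hlow : ∀ v : Pl F, ¬ Tame p v → ¬ IsUnram Z v → Nloc p Z v ≠ ⊤)
    (v : Pl F) (h : ¬ IsSplit Z v) : (Nloc p Z v).index = p := by
  obtain ⟨S, S', hBS, -, -, -, -, h1, -⟩ := core' hp hζ hdeg hlow {v}
  exact h1 v (hBS (Finset.mem_singleton_self v)) h

/-- (K1) at the split places everything is a local norm -/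
theorem K1_split (hp : p ≠ 2) (hζ : IsPrimitiveRoot ζ p) (hdeg : Module.finrank F Z = p)
    (hlow : ∀ v : Pl F, ¬ Tame p v → ¬ IsUnram Z v → Nloc p Z v ≠ ⊤)
    (v : Pl F) (h : IsSplit Z v) : Nloc p Z v = ⊤ := by
  obtain ⟨S, S', hBS, -, -, -, -, -, h1, -⟩ := core' hp hζ hdeg hlow {v}
  exact Subgroup.index_eq_one.mp (h1 v (hBS (Finset.mem_singleton_self v)) h)

/-- the subgroup of the elements of valuation divisible by `p` -/
def ordDvd (p : ℕ) (v : Pl F) : Subgroup Fˣ where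
  carrier := {x | (p : ℤ) ∣ ord v x}
  one_mem' := by simp [ord_one]
  mul_mem' := by
    intro a b ha hb
    simp only [Set.mem_ofPred_eq] at ha hb ⊢
    rw [ord_mul]; exact dvd_add ha hb
  inv_mem' := by
    intro a ha
    simp only [Set.mem_ofPred_eq] at ha ⊢
    rw [ord_inv]; exact (dvd_neg).mpr ha

/-- (K1) at the inert places the local norms are the elements of valuation divisible by `p` -/
theorem K1_inert (hp : p ≠ 2) (hζ : IsPrimitiveRoot ζ p) (hdeg : Module.finrank F Z = p)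
    (hlow : ∀ v : Pl F, ¬ Tame p v → ¬ IsUnram Z v → Nloc p Z v ≠ ⊤)
    (v : Pl F) (h : ¬ IsSplit Z v) (hu : IsUnram Z v) (x : Fˣ) :
    x ∈ Nloc p Z v ↔ (p : ℤ) ∣ ord v x := by
  have hpp : p.Prime := Fact.out
  refine ⟨dvd_ord_of_mem_Nloc hdeg v h hu x, fun hx => ?_⟩
  have hle : Nloc p Z v ≤ ordDvd p v := fun y hy => dvd_ord_of_mem_Nloc hdeg v h hu y hy
  have h1 := Subgroup.relIndex_mul_index hle
  rw [K1 hp hζ hdeg hlow v h] at h1
  have h2 : (ordDvd p v).index ≠ 1 := by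
    intro h3
    rw [Subgroup.index_eq_one] at h3
    obtain ⟨y, hy⟩ := exists_ord_eq {v} (fun _ => 1)
    have h4 : y ∈ ordDvd p v := h3 ▸ Subgroup.mem_top y
    have h5 : (p : ℤ) ∣ ord v y := h4
    rw [hy v (Finset.mem_singleton_self v)] at h5
    have := Int.natAbs_dvd_natAbs.mpr h5
    simp at this
    exact hpp.one_lt.ne' this
  have h3 : (ordDvd p v).index = p :=
    ((Nat.dvd_prime hpp).mp ⟨_, (mul_comm _ _).trans h1 |>.symm⟩).resolve_left h2
  rw [h3] at h1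
  have h4 : (Nloc p Z v).relIndex (ordDvd p v) = 1 :=
    Nat.eq_of_mul_eq_mul_right hpp.pos (h1.trans (one_mul _).symm)
  exact Subgroup.relIndex_eq_one.mp h4 hx

/-- (K2) **Hasse norm theorem** -/
theorem K2 (hp : p ≠ 2) (hζ : IsPrimitiveRoot ζ p) (hdeg : Module.finrank F Z = p)
    (hlow : ∀ v : Pl F, ¬ Tame p v → ¬ IsUnram Z v → Nloc p Z v ≠ ⊤)
    (b : Fˣ) (hb : ∀ v : Pl F, b ∈ Nloc p Z v) : b ∈ (normU : Zˣ →* Fˣ).range := by
  obtain ⟨S, S', hBS, hSS', -, -, -, -, -, -, -, h1⟩ :=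
    core' hp hζ hdeg hlow (ord_support_finite b).toFinset
  refine h1 ⟨(mem_NlocS_iff S b).mpr fun v _ => hb v, (mem_SUnit_iff S' b).mpr fun v hv => ?_⟩
  by_contra h
  exact hv (hSS' (hBS (by simpa using h)))

/-- (K3) the image of `Fˣ` in `⨁_v Fˣ / Nloc v` has codimension at most one -/
theorem K3 (hp : p ≠ 2) (hζ : IsPrimitiveRoot ζ p) (hdeg : Module.finrank F Z = p)
    (hlow : ∀ v : Pl F, ¬ Tame p v → ¬ IsUnram Z v → Nloc p Z v ≠ ⊤)
    (w₁ w₂ : Pl F) (hne : w₁ ≠ w₂) (h₁ : ¬ IsSplit Z w₁) (h₂ : ¬ IsSplit Z w₂) :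
    ∃ b : Fˣ, (∀ v : Pl F, v ≠ w₁ → v ≠ w₂ → b ∈ Nloc p Z v) ∧
      (b ∉ Nloc p Z w₁ ∨ b ∉ Nloc p Z w₂) := by
  classical
  have hpp : p.Prime := Fact.out
  obtain ⟨S, S', hBS, hSS', -, hunr, hsplit, hidx, -, hle, h0, -⟩ :=
    core' hp hζ hdeg hlow {w₁, w₂}
  have hw₁ : w₁ ∈ S := hBS (by simp)
  have hw₂ : w₂ ∈ S := hBS (by simp)
  set S0 := (S.erase w₁).erase w₂ with hS0
  set H := NlocS p Z S with hH
  set H' := NlocS p Z S0 with hH'
  set U := SUnit F S' with hU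
  have hHH' : H ≤ H' := by
    intro x hx
    rw [hH', mem_NlocS_iff]
    intro v hv
    exact (mem_NlocS_iff S x).mp hx v (Finset.mem_of_mem_erase (Finset.mem_of_mem_erase hv))
  have hprod : H.index = p * (p * H'.index) := by
    rw [hH, hH', index_NlocS, index_NlocS, ← Finset.mul_prod_erase S _ hw₁,
      ← Finset.mul_prod_erase (S.erase w₁) _ (Finset.mem_erase.mpr ⟨hne.symm, hw₂⟩),
      hidx w₁ hw₁ h₁, hidx w₂ hw₂ h₂]
  have hH0 : H.index ≠ 0 := by
    have h1 : H.relIndex (H ⊔ U) * (H ⊔ U).index = H.index :=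
      Subgroup.relIndex_mul_index le_sup_left
    intro h
    rw [index_NlocS] at h
    obtain ⟨v, hv, hv0⟩ := Finset.prod_eq_zero_iff.mp h
    obtain ⟨k, hk⟩ := index_Nloc (Z := Z) hζ v
    rw [hk] at hv0
    exact (pow_pos hpp.pos k).ne' hv0
  have hH'0 : H'.index ≠ 0 := by
    intro h
    rw [h] at hprod
    exact hH0 (by rw [hprod]; simp)
  have hrel : H.relIndex H' = p * p := by
    have h1 := Subgroup.relIndex_mul_index hHH'
    rw [hprod, ← mul_assoc] at h1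
    exact Nat.eq_of_mul_eq_mul_right (Nat.pos_of_ne_zero hH'0) h1
  obtain ⟨b, hbU, hbH', hbH⟩ : ∃ b, b ∈ U ∧ b ∈ H' ∧ b ∉ H := by
    by_contra hcon
    push Not at hcon
    have h1 : (H ⊔ U) ⊓ H' = H := by
      rw [sup_inf_assoc_of_le U hHH']
      exact sup_eq_left.mpr fun x hx => hcon x hx.1 hx.2
    have h2 : (H ⊔ U).relIndex H' = p * p := by
      rw [← Subgroup.inf_relIndex_right, h1, hrel]
    have h3 : (H ⊔ U).relIndex H' ∣ (H ⊔ U).index := Subgroup.relIndex_dvd_index_of_normal _ _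
    have h4 := (Nat.le_of_dvd (Nat.pos_of_ne_zero h0) h3).trans hle
    rw [h2] at h4
    have := hpp.one_lt
    nlinarith
  refine ⟨b, fun v hv1 hv2 => ?_, ?_⟩
  · by_cases hvS : v ∈ S
    · exact (mem_NlocS_iff S0 b).mp hbH' v
        (Finset.mem_erase.mpr ⟨hv2, Finset.mem_erase.mpr ⟨hv1, hvS⟩⟩)
    · by_cases hs : IsSplit Z v
      · rw [K1_split hp hζ hdeg hlow v hs]; exact Subgroup.mem_top b
      · have hvS' : v ∉ S' := fun h => hs (hsplit v h hvS)
        rw [K1_inert hp hζ hdeg hlow v hs (hunr v hvS), (mem_SUnit_iff S' b).mp hbU v hvS']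
        exact dvd_zero _
  · by_contra hcon
    push Not at hcon
    apply hbH
    rw [hH, mem_NlocS_iff]
    intro v hv
    by_cases hv1 : v = w₁
    · rw [hv1]; exact hcon.1
    by_cases hv2 : v = w₂
    · rw [hv2]; exact hcon.2
    exact (mem_NlocS_iff S0 b).mp hbH' v
      (Finset.mem_erase.mpr ⟨hv2, Finset.mem_erase.mpr ⟨hv1, hv⟩⟩)

omit [IsGalois F Z] [Algebra F Z] [NumberField Z] [Field Z] in
/-- (K4) an element which is a local `p`-th power at almost all places is a `p`-th power -/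
theorem K4 (hp : p ≠ 2) (hζ : IsPrimitiveRoot ζ p) (a : Fˣ) (B : Finset (Pl F))
    (h : ∀ v ∉ B, a ∈ lp p v) : a ∈ pows F p := by
  by_contra ha
  obtain ⟨t, htB, htame, -, -, hres⟩ := DL hp hζ B ∅ a (by simpa using ha)
  have h1 := h t htB
  rw [lp_tame hζ htame] at h1
  exact hres h1.2

end Fermat.Agent.S55.C
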