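import Fermat.Agent.S55.C.Lp
import Fermat.Agent.S55.C.UP

/-!
# S55, layer C: the index of the local `p`-th powers  (C0 of the blueprint)

`[Fˣ : lp v] ≤ p ^ 2 * (N v) ^ (e_v)` and `∏_{v ∣ p} (N v) ^ (e_v) = p ^ [F : ℚ]`, hence
`[Fˣ : lpS S] ≤ p ^ (2 #S + 2 r)` if `S` contains all wild places.

## Proof of `index_lp_le` (finite group trick)
Let `N = lev p v = 2 e + 1`, `R = 𝓞 F ⧸ v ^ N` (finite), `A = Rˣ`.
* (a) `card_torsion_le`: `#{x ∈ A | x ^ p = 1} ≤ p * (N v) ^ e`.  If `a ∈ 𝓞 F`, `a ^ p - 1 ∈ v ^ N` then by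
  `exists_val_le` there is a `p`-th root of unity `μ = ζ ^ i` with `val (a - μ) * val p ≤ exp (-N)`, i.e.
  `a - ζ ^ i ∈ v ^ (N - e)`.  So the torsion is covered by the `p` cosets `ζ ^ i + v ^ (N - e) / v ^ N`,
  each of cardinality `(N v) ^ e` (`Ideal.absNorm` is multiplicative:
  `#(𝓞/v^N) = #(𝓞/v^(N-e)) * #(v^(N-e)/v^N)`).
* (b) for a finite commutative group `#(A / A ^ p) = #A[p]`.
* (c) representatives: `π` with `ord v π = 1`; `a_j ∈ 𝓞 F \ v` lifting representatives of `A / A ^ p`.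
  Every `x ∈ Fˣ` lies in `π ^ r * a_j * lp v` for some `r < p` and `j`
  (`x = π ^ k u`, `u = a / b` by `exists_frac`; in `A`: `[a] [b]⁻¹ = [a_j] [c] ^ p`, so
  `a ≡ b a_j c ^ p mod v ^ N`, i.e. `u / (a_j c ^ p) ∈ Ulev v N`).
  Use `S14.T2a.index_le_of_reps` (import `Fermat.Agent.S14.T2aAux` if you like) or a surjection.

Keys: `S55/C-COUNT-a` (`card_torsion_le`), `S55/C-COUNT-b` (`index_lp_le` from `card_torsion_le`),
`S55/C-COUNT-c` (`prod_absNorm_pow_eV`, `index_lpS_le`).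
-/

set_option autoImplicit false

namespace Fermat.Agent.S55.C

open IsDedekindDomain NumberField Fermat.Agent.S14

variable {F : Type*} [Field F] [NumberField F] {p : ℕ} [Fact p.Prime] {ζ : 𝓞 F}

namespace CountAux

open LpAux

theorem finite_quot_pow (v : Pl F) (n : ℕ) : Finite (𝓞 F ⧸ v.asIdeal ^ n) :=
  Ideal.finiteQuotientOfFreeOfNeBot _ (pow_ne_zero n v.ne_bot)

theorem card_quot_pow (v : Pl F) (n : ℕ) :
    Nat.card (𝓞 F ⧸ v.asIdeal ^ n) = Ideal.absNorm v.asIdeal ^ n := by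
  rw [← map_pow, Ideal.absNorm_apply, Submodule.cardQuot_apply]

theorem absNorm_pos (v : Pl F) : 0 < Ideal.absNorm v.asIdeal := by
  have := resaux_one_lt_absNorm v
  omega

/-- the kernel of `𝓞 / v ^ (m + k) → 𝓞 / v ^ m` has `(N v) ^ k` elements -/
theorem card_ker_factor (v : Pl F) (m k : ℕ) :
    Nat.card (RingHom.ker (Ideal.Quotient.factor
      (Ideal.pow_le_pow_right (I := v.asIdeal) (Nat.le_add_right m k)))) =
      Ideal.absNorm v.asIdeal ^ k := by
  set π := Ideal.Quotient.factor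
      (Ideal.pow_le_pow_right (I := v.asIdeal) (Nat.le_add_right m k)) with hπ
  have hsurj : Function.Surjective π := Ideal.Quotient.factor_surjective _
  have h1 := AddSubgroup.card_mul_index (π.toAddMonoidHom.ker)
  have h2 : π.toAddMonoidHom.range = ⊤ := AddMonoidHom.range_eq_top.mpr hsurj
  rw [AddSubgroup.index_ker, h2, Nat.card_congr
    (AddSubgroup.topEquiv (G := 𝓞 F ⧸ v.asIdeal ^ m)).toEquiv, card_quot_pow, card_quot_pow,
    pow_add (Ideal.absNorm v.asIdeal), mul_comm] at h1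
  exact Nat.eq_of_mul_eq_mul_left (pow_pos (absNorm_pos v) m) h1

end CountAux

open CountAux LpAux

/-- key `S55/C-COUNT-a` -/
theorem card_torsion_le (hζ : IsPrimitiveRoot ζ p) (v : Pl F) :
    Nat.card {x : (𝓞 F ⧸ v.asIdeal ^ lev p v)ˣ // x ^ p = 1} ≤
      p * (Ideal.absNorm v.asIdeal) ^ eV p v := by
  have hp := (Fact.out : p.Prime)
  have hlev : lev p v = (eV p v + 1) + eV p v := by rw [lev]; ring
  rw [hlev]
  set e := eV p v with he
  set π := Ideal.Quotient.factor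
      (Ideal.pow_le_pow_right (I := v.asIdeal) (Nat.le_add_right (e + 1) e)) with hπ
  have key : ∀ x : {x : (𝓞 F ⧸ v.asIdeal ^ (e + 1 + e))ˣ // x ^ p = 1}, ∃ i : Fin p,
      ((x.1 : (𝓞 F ⧸ v.asIdeal ^ (e + 1 + e))ˣ) : 𝓞 F ⧸ v.asIdeal ^ (e + 1 + e)) -
        Ideal.Quotient.mk _ (ζ ^ (i : ℕ)) ∈ RingHom.ker π := by
    rintro ⟨x, hx⟩
    obtain ⟨a, ha⟩ := Ideal.Quotient.mk_surjective (x : 𝓞 F ⧸ v.asIdeal ^ (e + 1 + e))
    have h1 : a ^ p - 1 ∈ v.asIdeal ^ (e + 1 + e) := by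
      rw [← Ideal.Quotient.eq_zero_iff_mem, map_sub, map_pow, map_one, ha, sub_eq_zero,
        ← Units.val_pow_eq_pow_val, hx, Units.val_one]
    obtain ⟨μ, hμ, hle⟩ := exists_val_le (v.valuation F) hp.pos (kum_prim hζ) (a : F)
    obtain ⟨i, hi, rfl⟩ := (kum_prim hζ).eq_pow_of_pow_eq_one
      ((Polynomial.mem_nthRootsFinset hp.pos 1).mp hμ)
    refine ⟨⟨i, hi⟩, ?_⟩
    rw [RingHom.mem_ker, ← ha, ← map_sub, hπ, Ideal.Quotient.factor_mk,
      Ideal.Quotient.eq_zero_iff_mem, ← val_le_exp_iff]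
    have h2 := (val_le_exp_iff v _ _).mpr h1
    have h3 : v.valuation F ((a : F) - (ζ : F) ^ i) * WithZero.exp (-(e : ℤ)) ≤
        WithZero.exp (-((e + 1 + e : ℕ) : ℤ)) := by
      rw [← valuation_natCast_p]
      refine hle.trans (le_trans (le_of_eq ?_) h2)
      congr 1
    rw [← le_div_iff₀ WithZero.exp_pos, ← WithZero.exp_sub] at h3
    refine le_trans (le_of_eq ?_) (h3.trans (le_of_eq ?_))
    · congr 1
    · congr 1
      push_cast
      ring
  choose i hi using key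
  have hfin := finite_quot_pow v (e + 1 + e)
  have hinj : Function.Injective
      (fun x : {x : (𝓞 F ⧸ v.asIdeal ^ (e + 1 + e))ˣ // x ^ p = 1} =>
        ((i x, ⟨_, hi x⟩) : Fin p × RingHom.ker π)) := by
    intro x y hxy
    have h1 : i x = i y := congrArg Prod.fst hxy
    have h2 := congrArg (fun t => ((t.2 : RingHom.ker π) : 𝓞 F ⧸ v.asIdeal ^ (e + 1 + e))) hxy
    simp only [h1] at h2
    exact Subtype.ext (Units.ext (sub_left_injective h2))
  have := Nat.card_le_card_of_injective _ hinj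
  rwa [Nat.card_prod, Nat.card_fin, card_ker_factor] at this

namespace CountAux

/-- a subgroup with finitely many coset representatives has small index -/
theorem index_le_of_reps' {G ι : Type*} [CommGroup G] [Finite ι] (H : Subgroup G) (f : ι → G)
    (h : ∀ x, ∃ i, (f i)⁻¹ * x ∈ H) : H.index ≠ 0 ∧ H.index ≤ Nat.card ι := by
  have hsurj : Function.Surjective (fun i : ι => (QuotientGroup.mk (f i) : G ⧸ H)) := by
    intro q
    obtain ⟨x, rfl⟩ := QuotientGroup.mk_surjective q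
    obtain ⟨i, hi⟩ := h x
    exact ⟨i, QuotientGroup.eq.mpr hi⟩
  have hfin : Finite (G ⧸ H) := Finite.of_surjective _ hsurj
  exact ⟨Subgroup.index_ne_zero_of_finite, Nat.card_le_card_of_surjective _ hsurj⟩

/-- `#(A / A ^ n) = #A[n]` for a finite commutative group -/
theorem index_range_pow {A : Type*} [CommGroup A] [Finite A] (n : ℕ) :
    (powMonoidHom n : A →* A).range.index = Nat.card {x : A // x ^ n = 1} := by
  have h1 := Subgroup.card_mul_index (powMonoidHom n : A →* A).ker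
  have h2 := Subgroup.card_mul_index (powMonoidHom n : A →* A).range
  rw [Subgroup.index_ker] at h1
  rw [← h1, mul_comm] at h2
  have h3 := Nat.eq_of_mul_eq_mul_right Nat.card_pos h2
  rw [h3]
  exact Nat.card_congr (Equiv.subtypeEquivRight fun x => MonoidHom.mem_ker)

theorem isUnit_mk_of_not_mem (v : Pl F) (n : ℕ) {a : 𝓞 F} (ha : a ∉ v.asIdeal) :
    IsUnit (Ideal.Quotient.mk (v.asIdeal ^ n) a) := by
  have := v.isMaximal
  obtain ⟨b, j, hj, hij⟩ := Ideal.IsMaximal.exists_inv_pow v.asIdeal ha n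
  refine IsUnit.of_mul_eq_one (Ideal.Quotient.mk _ b) ?_
  rw [← map_mul, ← map_one (Ideal.Quotient.mk (v.asIdeal ^ n)), Ideal.Quotient.eq, ← hij]
  have : a * b - (b * a + j) = -j := by ring
  rw [this]
  exact neg_mem hj

theorem not_mem_of_isUnit_mk (v : Pl F) {n : ℕ} (hn : n ≠ 0) {a : 𝓞 F}
    (h : IsUnit (Ideal.Quotient.mk (v.asIdeal ^ n) a)) : a ∉ v.asIdeal := by
  intro ha
  obtain ⟨t, ht⟩ := h.exists_right_inv
  obtain ⟨b, rfl⟩ := Ideal.Quotient.mk_surjective t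
  rw [← map_mul, ← map_one (Ideal.Quotient.mk (v.asIdeal ^ n)), Ideal.Quotient.eq] at ht
  have h1 : a * b - 1 ∈ v.asIdeal := Ideal.pow_le_self hn ht
  apply v.isPrime.ne_top
  rw [Ideal.eq_top_iff_one]
  have := sub_mem (Ideal.mul_mem_right b _ ha) h1
  rwa [sub_sub_cancel] at this

theorem exists_lift (v : Pl F) {n : ℕ} (hn : n ≠ 0) (t : (𝓞 F ⧸ v.asIdeal ^ n)ˣ) :
    ∃ a : 𝓞 F, Ideal.Quotient.mk (v.asIdeal ^ n) a = t ∧ a ∉ v.asIdeal := by
  obtain ⟨a, ha⟩ := Ideal.Quotient.mk_surjective (t : 𝓞 F ⧸ v.asIdeal ^ n)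
  exact ⟨a, ha, not_mem_of_isUnit_mk v hn (ha ▸ t.isUnit)⟩

end CountAux

/-- key `S55/C-COUNT-b` -/
theorem index_lp_le (hζ : IsPrimitiveRoot ζ p) (v : Pl F) :
    (lp p v).index ≠ 0 ∧ (lp p v).index ≤ p ^ 2 * (Ideal.absNorm v.asIdeal) ^ eV p v := by
  have hp := (Fact.out : p.Prime)
  have hN : lev p v ≠ 0 := by rw [lev]; omega
  have hfin := finite_quot_pow v (lev p v)
  set P := (powMonoidHom p : (𝓞 F ⧸ v.asIdeal ^ lev p v)ˣ →* (𝓞 F ⧸ v.asIdeal ^ lev p v)ˣ).range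
    with hP
  choose lift hlift1 hlift2 using exists_lift v hN
  obtain ⟨π, hπ⟩ := exists_ord_eq {v} (fun _ => 1)
  have hπ1 : ord v π = 1 := hπ v (by simp)
  have hcard : Nat.card (Fin p × ((𝓞 F ⧸ v.asIdeal ^ lev p v)ˣ ⧸ P)) ≤
      p ^ 2 * (Ideal.absNorm v.asIdeal) ^ eV p v := by
    rw [Nat.card_prod, Nat.card_fin, ← Subgroup.index_eq_card, hP, index_range_pow, sq, mul_assoc]
    exact Nat.mul_le_mul_left _ (card_torsion_le hζ v)
  have main := index_le_of_reps' (lp p v)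
    (fun i : Fin p × ((𝓞 F ⧸ v.asIdeal ^ lev p v)ˣ ⧸ P) =>
      π ^ (i.1 : ℕ) * Units.mk0 (lift i.2.out : F) (coe_ne_zero_of_not_mem (hlift2 _))) ?_
  · exact ⟨main.1, main.2.trans hcard⟩
  intro x
  set k := ord v x with hk
  have hp0 : (p : ℤ) ≠ 0 := by exact_mod_cast hp.ne_zero
  have hr0 : 0 ≤ k % p := Int.emod_nonneg _ hp0
  have hr1 : k % p < p := Int.emod_lt_of_pos _ (by exact_mod_cast hp.pos)
  have hrn : (k % p).toNat < p := by omega
  have hπk : π ^ k = (π ^ (k / p)) ^ p * π ^ (k % p).toNat := by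
    rw [← zpow_natCast (π ^ (k / p)) p, ← zpow_mul, ← zpow_natCast π (k % p).toNat,
      Int.toNat_of_nonneg hr0, ← zpow_add]
    congr 1
    rw [mul_comm]
    exact (Int.mul_ediv_add_emod k p).symm
  have h0 : ord v (x / π ^ k) = 0 := by
    rw [ord_div, ord_zpow, hπ1]; ring
  obtain ⟨a, b, ha, hb, hab⟩ := exists_frac v _ h0
  set tA := (isUnit_mk_of_not_mem v (lev p v) ha).unit with htA
  set tB := (isUnit_mk_of_not_mem v (lev p v) hb).unit with htB
  set j : (𝓞 F ⧸ v.asIdeal ^ lev p v)ˣ ⧸ P := QuotientGroup.mk (tA * tB⁻¹) with hj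
  have hjmem : j.out⁻¹ * (tA * tB⁻¹) ∈ P := by
    rw [← QuotientGroup.eq, QuotientGroup.out_eq']
  obtain ⟨s, hs⟩ := hjmem
  have hs' : tA = tB * j.out * s ^ p := by
    have : s ^ p = j.out⁻¹ * (tA * tB⁻¹) := hs
    rw [this]
    rw [mul_assoc, mul_inv_cancel_left, mul_comm tA, mul_inv_cancel_left]
  have hden : b * lift j.out * lift s ^ p ∉ v.asIdeal := by
    intro h
    rcases v.isPrime.mem_or_mem h with h | h
    · rcases v.isPrime.mem_or_mem h with h | h
      · exact hb h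
      · exact hlift2 _ h
    · exact hlift2 _ (v.isPrime.mem_of_pow_mem _ h)
  have hcongr : a - b * lift j.out * lift s ^ p ∈ v.asIdeal ^ lev p v := by
    rw [← Ideal.Quotient.eq, map_mul, map_mul, map_pow, hlift1, hlift1]
    have := congrArg (Units.val) hs'
    simpa [htA, htB] using this
  set w : Fˣ := Units.mk0 (a : F) (coe_ne_zero_of_not_mem ha) /
    Units.mk0 ((b * lift j.out * lift s ^ p : 𝓞 F) : F) (coe_ne_zero_of_not_mem hden) with hw
  have hwU : w ∈ Ulev v (lev p v) :=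
    (frac_mem_Ulev_iff v _ w _ _ ha hden (by simp [hw])).mpr hcongr
  refine ⟨(⟨(k % p).toNat, hrn⟩, j), ?_⟩
  have e : (π ^ (k % p).toNat * Units.mk0 (lift j.out : F) (coe_ne_zero_of_not_mem (hlift2 _)))⁻¹ * x
      = (π ^ (k / p) * Units.mk0 (lift s : F) (coe_ne_zero_of_not_mem (hlift2 _))) ^ p * w := by
    have hx : x = (π ^ (k / p)) ^ p * π ^ (k % p).toNat * (x / π ^ k) := by
      rw [← hπk, mul_div_cancel]
    rw [hx, mul_pow]
    generalize (π ^ (k / p)) ^ p = α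
    generalize π ^ (k % p).toNat = β
    ext
    have h1 := α.ne_zero
    have h2 := β.ne_zero
    have h3 := coe_ne_zero_of_not_mem hb
    have h4 := coe_ne_zero_of_not_mem (hlift2 j.out)
    have h5 := coe_ne_zero_of_not_mem (hlift2 s)
    simp only [Units.val_mul, Units.val_inv_eq_inv_val, Units.val_mk0, hab, hw,
      Units.val_div_eq_div_val, Units.val_pow_eq_pow_val]
    push_cast
    field_simp
  show (π ^ (k % p).toNat * Units.mk0 (lift j.out : F) (coe_ne_zero_of_not_mem (hlift2 _)))⁻¹ * x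
    ∈ lp p v
  rw [e]
  exact Subgroup.mul_mem_sup ⟨_, rfl⟩ hwU

namespace CountAux

theorem maxPowDividing_span_p (v : Pl F) :
    v.maxPowDividing (Ideal.span {(p : 𝓞 F)}) = v.asIdeal ^ eV p v := by
  have hp0 : (p : 𝓞 F) ≠ 0 := Nat.cast_ne_zero.mpr (Fact.out : p.Prime).ne_zero
  have h1 := valuation_natCast_p (p := p) v
  have h2 : v.valuation F (p : F) = v.intValuation (p : 𝓞 F) := by
    rw [← HeightOneSpectrum.valuation_of_algebraMap (K := F)]
    simp
  rw [h2, v.intValuation_if_neg hp0, WithZero.exp_inj, neg_inj] at h1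
  rw [HeightOneSpectrum.maxPowDividing]
  congr 1
  exact_mod_cast h1

end CountAux

/-- key `S55/C-COUNT-c`. -/
theorem prod_absNorm_pow_eV (S : Finset (Pl F)) (hwild : ∀ v : Pl F, ¬ Tame p v → v ∈ S) :
    ∏ v ∈ S, (Ideal.absNorm v.asIdeal) ^ eV p v = p ^ Module.finrank ℚ F := by
  have hp0 : (p : 𝓞 F) ≠ 0 := Nat.cast_ne_zero.mpr (Fact.out : p.Prime).ne_zero
  have hI : Ideal.span {(p : 𝓞 F)} ≠ 0 := by
    rw [Ne, Ideal.zero_eq_bot, Ideal.span_singleton_eq_bot]
    exact hp0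
  have h1 := Ideal.finprod_heightOneSpectrum_factorization hI
  simp only [maxPowDividing_span_p] at h1
  rw [finprod_eq_prod_of_mulSupport_subset (s := S)] at h1
  · have h2 := congrArg Ideal.absNorm h1
    rw [map_prod, Ideal.absNorm_span_natCast, RingOfIntegers.rank] at h2
    rw [← h2]
    exact Finset.prod_congr rfl fun v _ => (map_pow _ _ _).symm
  · intro v hv
    rw [Function.mem_mulSupport] at hv
    apply hwild
    intro ht
    apply hv
    rw [(eV_eq_zero_iff v).mpr ht, pow_zero]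

/-- key `S55/C-COUNT-c` -/
theorem index_lpS_le (hp : p ≠ 2) (hζ : IsPrimitiveRoot ζ p) (S : Finset (Pl F))
    (hwild : ∀ v : Pl F, ¬ Tame p v → v ∈ S) :
    (lpS p S).index ≠ 0 ∧ (lpS p S).index ≤ p ^ (2 * S.card + 2 * rI F) := by
  have h1 : (lpS p S).index = ∏ v ∈ S, (lp p v).index := by
    refine index_iInf_eq S (fun v => lp p v) (S.sup (lev p)) fun v hv => ?_
    exact (Ulev_anti v (Finset.le_sup (f := lev p) hv)).trans (Ulev_le_lp v)
  rw [h1]
  refine ⟨Finset.prod_ne_zero_iff.mpr fun v _ => (index_lp_le hζ v).1, ?_⟩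
  calc ∏ v ∈ S, (lp p v).index ≤ ∏ v ∈ S, (p ^ 2 * (Ideal.absNorm v.asIdeal) ^ eV p v) :=
        Finset.prod_le_prod' fun v _ => (index_lp_le hζ v).2
    _ = p ^ (2 * S.card + 2 * rI F) := by
        rw [Finset.prod_mul_distrib, prod_absNorm_pow_eV S hwild, Finset.prod_const,
          two_mul_rI hp hζ, pow_add, ← pow_mul]

end Fermat.Agent.S55.C
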