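import Fermat.Agent.S55.C.Count

/-!
# S55, layer C: `∏_{w ∈ S} [Fˣ : lp w] ≤ p ^ (2 #S + [F : ℚ])` (for layer D, step D8).
-/

set_option autoImplicit false

namespace Fermat.Agent.S55.C

open IsDedekindDomain NumberField Fermat.Agent.S14

variable {F : Type*} [Field F] [NumberField F] {p : ℕ} [Fact p.Prime] {ζ : 𝓞 F}

theorem prod_index_lp_le (hζ : IsPrimitiveRoot ζ p) (S : Finset (Pl F))
    (hwild : ∀ v : Pl F, ¬ Tame p v → v ∈ S) :
    ∏ v ∈ S, (lp p v).index ≤ p ^ (2 * S.card + Module.finrank ℚ F) := by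
  calc ∏ v ∈ S, (lp p v).index
      ≤ ∏ v ∈ S, (p ^ 2 * (Ideal.absNorm v.asIdeal) ^ eV p v) :=
        Finset.prod_le_prod' fun v _ => (index_lp_le hζ v).2
    _ = p ^ (2 * S.card + Module.finrank ℚ F) := by
        rw [Finset.prod_mul_distrib, prod_absNorm_pow_eV S hwild, Finset.prod_const, ← pow_mul,
          ← pow_add]

end Fermat.Agent.S55.C
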