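import Fermat.Agent.S14.DL

/-!
# S55, layer C: Kummer density and the density lemma over an arbitrary number field `K ∋ ζ_p`.

Copies of `S14.KD`, `S14.DLaux.bdd_Ze_of_not_mem`, `S14.DLaux.density`, `S14.DL` without the
(unused) hypothesis `IsCyclotomicExtension {p} ℚ K`.
-/

set_option autoImplicit false

namespace Fermat.Agent.S55.C

open IsDedekindDomain NumberField Filter Topology Fermat.Agent.S14

variable {K : Type*} [Field K] [NumberField K] {p : ℕ} [Fact p.Prime] {ζ : 𝓞 K}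

/-- the good primes at which `u` is a `p`-th power residue -/
def splitSet (p : ℕ) (ζ : 𝓞 K) (u : Kˣ) : Set (Pl K) :=
  {v | Tame p v ∧ ord v u = 0 ∧ res p ζ v u = 0}

open Dens KDaux Polynomial in
/-- **Kummer density**: `p * ∑_{v ∈ splitSet u} Nv^{-s} = ∑_v Nv^{-s} + O(1)` as `s → 1+`. -/
theorem KD (hp : p ≠ 2) (hζ : IsPrimitiveRoot ζ p) (u : Kˣ) (hu : u ∉ pows K p) :
    ∃ C : ℝ, ∀ᶠ s in 𝓝[>] (1 : ℝ),
      |(p : ℝ) * (∑' v : splitSet p ζ u, (Ideal.absNorm v.1.asIdeal : ℝ) ^ (-s))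
        - ∑' v : Pl K, (Ideal.absNorm v.asIdeal : ℝ) ^ (-s)| ≤ C := by
  let Z := (X ^ p - C (u : K)).SplittingField
  have : NumberField Z := NumberField.of_module_finite K Z
  have : IsSplittingField K Z (X ^ p - C (u : K)) := IsSplittingField.splittingField _
  have : IsGalois K Z := kummer_isGalois u hζ
  have hdeg : Module.finrank K Z = p := kummer_finrank u hζ hu
  have h1 := bdd_split (K := K) (Z := Z) hdeg
  -- compare the two full series
  have hK : Bdd (fun s ↦ DS (Set.univ : Set (Pl K)) s - Real.log (1 / (s - 1))) := by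
    obtain ⟨C, hC⟩ := primeZeta_asymp K
    rw [bdd_iff]
    refine ⟨C, ?_⟩
    filter_upwards [hC] with s hs
    rw [DS_univ]; exact hs
  have hZ : Bdd (fun s ↦ DS (Set.univ : Set (Pl Z)) s - Real.log (1 / (s - 1))) := by
    obtain ⟨C, hC⟩ := primeZeta_asymp Z
    rw [bdd_iff]
    refine ⟨C, ?_⟩
    filter_upwards [hC] with s hs
    rw [DS_univ]; exact hs
  -- compare the split sets
  have hsub : splitSet p ζ u ⊆ {v : Pl K | IsSplit Z v} := fun v hv ↦
    D2 u hζ hu v hv.1 ⟨by rw [hv.2.1]; exact dvd_zero _, hv.2.2⟩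
  have hfin : ({v : Pl K | IsSplit Z v} \ splitSet p ζ u).Finite := by
    refine ((finite_not_tame p).union (ord_support_finite u)).subset fun v hv ↦ ?_
    by_contra hh
    rw [Set.mem_union, not_or] at hh
    have ht : Tame p v := by
      by_contra h0
      exact hh.1 h0
    have h0 : ord v u = 0 := by
      by_contra h0
      exact hh.2 h0
    exact hv.2 ⟨ht, h0, D2' u hζ hu v ht h0 hv.1⟩
  have h2 := (bdd_DS_sub hsub hfin).const_mul p
  have h3 : Bdd (fun s ↦ (p : ℝ) * DS (splitSet p ζ u) s - DS (Set.univ : Set (Pl K)) s) :=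
    (((hZ.sub hK).sub h1).sub h2).congr' fun s _ ↦ by ring
  rw [bdd_iff] at h3
  obtain ⟨C, hC⟩ := h3
  refine ⟨C, ?_⟩
  filter_upwards [hC] with s hs
  rw [DS_subtype, ← DS_univ]
  exact hs

namespace DLaux

open Dens Fermat.Agent.S14.DLaux

variable {ι : Type*} [Fintype ι] [DecidableEq ι]

theorem bdd_Ze_of_not_mem (hp : p ≠ 2) (hζ : IsPrimitiveRoot ζ p) (x : ι → Kˣ) (e : ι → ZMod p)
    (he : xe x e ∉ pows K p) :
    Bdd (fun s ↦ (p : ℝ) * DS (Ze ζ x e) s - DS (Set.univ : Set (Pl K)) s) := by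
  obtain ⟨C, hC⟩ := KD hp hζ (xe x e) he
  have h1 : Bdd (fun s ↦ (p : ℝ) * DS (splitSet p ζ (xe x e)) s
      - DS (Set.univ : Set (Pl K)) s) := by
    rw [bdd_iff]
    refine ⟨C, ?_⟩
    filter_upwards [hC] with s hs
    rw [DS_univ, ← DS_subtype]
    exact hs
  have hsub : Ze ζ x e ⊆ splitSet p ζ (xe x e) := fun v hv ↦ ⟨hv.1.1, ord_xe hv.1 e, hv.2⟩
  have hfin : (splitSet p ζ (xe x e) \ Ze ζ x e).Finite :=
    (finite_compl_good (p := p) x).subset fun v hv hg ↦ hv.2 ⟨hg, hv.1.2.2⟩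
  have h2 := (bdd_DS_sub hsub hfin).const_mul p
  exact (h1.sub h2).congr' fun s _ ↦ by ring

/-- the density of the places at which all symbols vanish -/
theorem density (hp : p ≠ 2) (hζ : IsPrimitiveRoot ζ p) (x : ι → Kˣ) :
    Bdd (fun s ↦ (p : ℝ) ^ Fintype.card ι * DS (zer p ζ x) s
      - ((Rel (p := p) x).card : ℝ) * DS (Set.univ : Set (Pl K)) s) := by
  classical
  have h1 : ∀ e ∈ (Finset.univ : Finset (ι → ZMod p)),
      Bdd (fun s ↦ (p : ℝ) * DS (Ze ζ x e) s
        - (1 + ((p : ℝ) - 1) * (if e ∈ Rel x then 1 else 0)) * DS (Set.univ : Set (Pl K)) s) := by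
    intro e _
    by_cases he : xe x e ∈ pows K p
    · have hm : e ∈ Rel x := (mem_Rel x e).mpr he
      rw [Ze_of_mem x e he]
      simp only [if_pos hm]
      exact ((bdd_good (p := p) x).const_mul (-(p : ℝ))).congr' fun s _ ↦ by ring
    · have hm : e ∉ Rel x := fun h ↦ he ((mem_Rel x e).mp h)
      simp only [if_neg hm]
      exact (bdd_Ze_of_not_mem hp hζ x e he).congr' fun s _ ↦ by ring
  have h2 := Bdd.sum _ h1
  have hsum : ∑ e : ι → ZMod p, (1 + ((p : ℝ) - 1) * (if e ∈ Rel x then 1 else 0))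
      = (p : ℝ) ^ Fintype.card ι + ((p : ℝ) - 1) * ((Rel (p := p) x).card : ℝ) := by
    rw [Finset.sum_add_distrib, ← Finset.mul_sum, Finset.sum_boole, Finset.sum_const,
      Finset.card_univ, Fintype.card_fun, ZMod.card, Finset.filter_mem_eq_inter,
      Finset.univ_inter]
    simp
  have h3 : Bdd (fun s ↦ (p : ℝ) ^ Fintype.card ι
      * (DS (good p x) s + ((p : ℝ) - 1) * DS (zer p ζ x) s)
      - ((p : ℝ) ^ Fintype.card ι + ((p : ℝ) - 1) * ((Rel (p := p) x).card : ℝ))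
        * DS (Set.univ : Set (Pl K)) s) :=
    h2.congr' fun s hs ↦ by
      rw [Finset.sum_sub_distrib, ← Finset.mul_sum, DS_identity x hs, ← Finset.sum_mul, hsum]
  have h4 := (bdd_good (p := p) x).const_mul ((p : ℝ) ^ Fintype.card ι)
  have h5 : Bdd (fun s ↦ ((p : ℝ) - 1) * ((p : ℝ) ^ Fintype.card ι * DS (zer p ζ x) s
      - ((Rel (p := p) x).card : ℝ) * DS (Set.univ : Set (Pl K)) s)) :=
    (h3.add h4).congr' fun s _ ↦ by ring
  have hp1 : (p : ℝ) - 1 ≠ 0 := by
    have : (1 : ℝ) < p := by exact_mod_cast (Fact.out : p.Prime).one_lt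
    linarith
  exact Bdd.of_const_mul hp1 h5

end DLaux

open DLaux Fermat.Agent.S14.DLaux Dens in
/-- **Density lemma**: if `u` is not in the subgroup generated by `us` and the `p`-th powers, there
is a tame place `t` outside `B` at which all elements of `us` are `p`-th power residues and `u`
is not. -/
theorem DL (hp : p ≠ 2) (hζ : IsPrimitiveRoot ζ p) (B : Finset (Pl K)) (us : Finset Kˣ) (u : Kˣ)
    (hu : u ∉ Subgroup.closure (us : Set Kˣ) ⊔ pows K p) :
    ∃ t : Pl K, t ∉ B ∧ Tame p t ∧ (∀ x ∈ us, ord t x = 0 ∧ res p ζ t x = 0) ∧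
      ord t u = 0 ∧ res p ζ t u ≠ 0 := by
  classical
  by_contra hcon
  push Not at hcon
  let x : us → Kˣ := fun i ↦ i.1
  have hrange : Set.range x = (us : Set Kˣ) := Subtype.range_coe
  have hu' : u ∉ Subgroup.closure (Set.range x) ⊔ pows K p := by rw [hrange]; exact hu
  have hd := density hp hζ x
  have hd' := density hp hζ (fun o : Option us ↦ o.elim u x)
  rw [card_Rel_option x u hu'] at hd'
  have hsub : zer p ζ (fun o : Option us ↦ o.elim u x) ⊆ zer p ζ x :=
    fun v hv ↦ ⟨⟨hv.1.1, fun i ↦ hv.1.2 (some i)⟩, fun i ↦ hv.2 (some i)⟩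
  have hfin : (zer p ζ x \ zer p ζ (fun o : Option us ↦ o.elim u x)).Finite := by
    refine ((B.finite_toSet).union (ord_support_finite u)).subset ?_
    intro v hv
    by_contra hh
    rw [Set.mem_union, not_or] at hh
    apply hv.2
    have hu0 : ord v u = 0 := by
      by_contra h0
      exact hh.2 h0
    have hr := hcon v hh.1 hv.1.1.1 (fun y hy ↦ ⟨hv.1.1.2 ⟨y, hy⟩, hv.1.2 ⟨y, hy⟩⟩) hu0
    refine ⟨⟨hv.1.1.1, ?_⟩, ?_⟩
    · rintro (_ | i)
      · exact hu0
      · exact hv.1.1.2 i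
    · rintro (_ | i)
      · exact hr
      · exact hv.1.2 i
  have hc := bdd_DS_sub hsub hfin
  rw [Fintype.card_option] at hd'
  have hp1 : (p : ℝ) - 1 ≠ 0 := by
    have : (1 : ℝ) < p := by exact_mod_cast (Fact.out : p.Prime).one_lt
    linarith
  have hr0 : ((Rel (p := p) x).card : ℝ) ≠ 0 := by
    have : 0 < (Rel (p := p) x).card := Finset.card_pos.mpr ⟨0, zero_mem_Rel x⟩
    exact_mod_cast this.ne'
  have hfinal : Bdd (fun s ↦ (((p : ℝ) - 1) * ((Rel (p := p) x).card : ℝ))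
      * DS (Set.univ : Set (Pl K)) s) :=
    ((hd'.sub (hd.const_mul p)).add (hc.const_mul ((p : ℝ) ^ (Fintype.card us + 1)))).congr'
      fun s _ ↦ by ring
  exact not_bdd_DS_univ (Bdd.of_const_mul (mul_ne_zero hp1 hr0) hfinal)

end Fermat.Agent.S55.C
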