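import Fermat.Agent.S14.T1
import Fermat.Agent.S14.Kummer

/-!
# S55, layer C (elementary class field theory of Kummer extensions of degree `p`)

`F` is an arbitrary number field, `p` an odd prime, `ζ : 𝓞 F` a primitive `p`-th root of unity
(hypothesis `hζ : IsPrimitiveRoot ζ p` passed to the lemmas).

We reuse from `Fermat.Agent.S14` (all of it is stated for arbitrary number fields):
`Pl`, `ord`, `pows`, `Ulev`, `Gen`, `Tame`, `res`, `tamePow`, `pair`, `rpair` (`S14/Defs`, `S14/Basic`),
`below`, `upU`, `normU`, `gPl`, `IsSplit`, `IsUnram` (`S14/Ext`), `SUnit` (`S14/SUnits`),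
`T1_index`, `T1char` (`S14/T1`), the tame part of `S14/Kummer` (`D1`, `D2`, `D2'`, `D4`).

New definitions: `eV`, `lp` (local `p`-th powers, uniform in `v`), `lpS`, `Nloc` (local norms).
-/

set_option autoImplicit false

namespace Fermat.Agent.S55.C

open IsDedekindDomain NumberField Fermat.Agent.S14

variable {F : Type*} [Field F] [NumberField F]

/-- `p` as a unit of `F` -/
noncomputable def pU (F : Type*) [Field F] [NumberField F] (p : ℕ) [Fact p.Prime] : Fˣ :=
  Units.mk0 (p : F) (Nat.cast_ne_zero.mpr (Fact.out : p.Prime).ne_zero)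

@[simp] theorem coe_pU (p : ℕ) [Fact p.Prime] : ((pU F p : Fˣ) : F) = p := rfl

/-- the absolute ramification index `e_v = ord_v(p)` (`0` at the tame places) -/
noncomputable def eV (p : ℕ) [Fact p.Prime] (v : Pl F) : ℕ := (ord v (pU F p)).toNat

/-- the level from which on all units are `p`-th powers -/
noncomputable def lev (p : ℕ) [Fact p.Prime] (v : Pl F) : ℕ := 2 * eV p v + 1

/-- local `p`-th powers at `v`: `Fˣᵖ · U_v^(2 e_v + 1)` -/
noncomputable def lp (p : ℕ) [Fact p.Prime] (v : Pl F) : Subgroup Fˣ := pows F p ⊔ Ulev v (lev p v)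

/-- elements which are local `p`-th powers at all places of `S` -/
noncomputable def lpS (p : ℕ) [Fact p.Prime] (S : Finset (Pl F)) : Subgroup Fˣ := ⨅ v ∈ S, lp p v

/-- local norms at `v` from `Z`: `N(Zˣ) · Fˣᵖ · U_v^(2 e_v + 1)` -/
noncomputable def Nloc (p : ℕ) [Fact p.Prime] (Z : Type*) [Field Z] [NumberField Z] [Algebra F Z]
    (v : Pl F) : Subgroup Fˣ := (normU : Zˣ →* Fˣ).range ⊔ lp p v

/-- elements which are local norms at all places of `S` -/
noncomputable def NlocS (p : ℕ) [Fact p.Prime] (Z : Type*) [Field Z] [NumberField Z] [Algebra F Z]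
    (S : Finset (Pl F)) : Subgroup Fˣ := ⨅ v ∈ S, Nloc p Z v

/-- the number of infinite places (`= [F:ℚ]/2` if `ζ_p ∈ F`, `p` odd) -/
noncomputable def rI (F : Type*) [Field F] [NumberField F] : ℕ := Fintype.card (InfinitePlace F)

end Fermat.Agent.S55.C
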