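import Fermat.Agent.S55.C.Kum

/-!
# S55, layer C: the first inequality for Kummer extensions which split at the wild places,
in character form (generalisation of `S14.KT1`).
-/

set_option autoImplicit false

namespace Fermat.Agent.S55.C

open IsDedekindDomain NumberField Fermat.Agent.S14

variable {F : Type*} [Field F] [NumberField F] {p : ℕ} [Fact p.Prime] {ζ : 𝓞 F}

/-- **First inequality** for `Z = F(z^(1/p))`, `z` not a `p`-th power and a local `p`-th power at the
wild places.  There is a nonzero "idele class character" `(c, φ)` which is trivial on principal ideles: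
`c` lives on the ramified places (residue symbols), `φ` on the unramified ones (valuations),
and `φ` vanishes at the places where `z` is a local `p`-th power. -/
theorem KT1 (hp : p ≠ 2) (hζ : IsPrimitiveRoot ζ p) (z : Fˣ) (hz : z ∉ pows F p)
    (hwild : ∀ v : Pl F, ¬ Tame p v → z ∈ lp p v) :
    ∃ c φ : Pl F → ZMod p,
      (∀ v, (p : ℤ) ∣ ord v z → c v = 0) ∧
      (∀ v, ¬ (p : ℤ) ∣ ord v z → φ v = 0) ∧
      (∀ v, z ∈ lp p v → φ v = 0) ∧
      (c ≠ 0 ∨ φ ≠ 0) ∧
      ∀ x : Fˣ, (∀ v, ¬ (p : ℤ) ∣ ord v z → ord v x = 0) → rpair p ζ c x + pair p φ x = 0 := by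
  let Z := (Polynomial.X ^ p - Polynomial.C (z : F) : Polynomial F).SplittingField
  haveI : CharZero Z := charZero_of_injective_algebraMap (algebraMap F Z).injective
  haveI : NumberField Z := NumberField.of_module_finite F Z
  haveI : IsGalois F Z := kummer_isGalois z hζ
  have hdeg : Module.finrank F Z = p := kummer_finrank z hζ hz
  have hunr : ∀ v : Pl F, IsUnram Z v ↔ (p : ℤ) ∣ ord v z := by
    intro v
    constructor
    · intro h
      by_contra hn
      exact D4 z hζ hz v hn h
    · intro h
      by_cases hv : Tame p v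
      · exact D1 z hζ hz v hv h
      · exact (isSplit_of_mem_lp z hζ hz v (hwild v hv)).isUnram hdeg
  have htame : ∀ v : Pl F, ¬ IsUnram Z v → Tame p v := by
    intro v hv
    by_contra ht
    exact hv ((isSplit_of_mem_lp z hζ hz v (hwild v ht)).isUnram hdeg)
  obtain ⟨c, φ, h1, h2, h3, h4, h5⟩ := T1char (Z := Z) hp hζ hdeg htame
  exact ⟨c, φ, fun v hv => h1 v ((hunr v).mpr hv), fun v hv => h2 v (fun h => hv ((hunr v).mp h)),
    fun v hv => h3 v (isSplit_of_mem_lp z hζ hz v hv), h4,
    fun x hx => h5 x fun v hv => hx v (fun h => hv ((hunr v).mpr h))⟩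

end Fermat.Agent.S55.C
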