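import Fermat.Agent.S55.C.Lp

/-!
# S55, layer C: Kummer extensions `Z = F(z^(1/p))`: splitting at the places where `z` is a local
`p`-th power (uniform in tame / wild), and converse; every cyclic extension of degree `p` is Kummer.

## Proof of `isSplit_of_mem_lp` (no Artin-Schreier equation needed)
By `mem_lp_iff` `z = y ^ p * u`, `val_v (u - 1) < val_v (p) ^ 2`.  Let `b ^ p = z` in `Z` (`kum_exists_root`),
`B = b / y`, so `B ^ p = u`.  Let `w ∣ v` and `σ` with `gPl σ w = w`; by `isSplit_of_stabilizer` we must show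
`σ = 1`.  `σ B = ζ ^ k B` (`kum_exists_pow`).  By `exists_val_le` (for `w.valuation Z`) there is a root of unity `μ`
(in `F`, a power of `ζ`) with `val_w (B - μ) * val_w p ≤ val_w (u - 1) < val_w (p) ^ 2`
[`val_w` restricted to `F` is a power of `val_v` (`ord_upU`), so strict inequalities are preserved], hence
`val_w (B - μ) < val_w p`.  As `σ w = w`: `val_w (σ B - μ) = val_w (B - μ)` (`ord_gPl`).  Then
`μ (ζ ^ k - 1) = (ζ ^ k B - μ) - ζ ^ k (B - μ)` has `val_w < val_w p`; but if `ζ ^ k ≠ 1` then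
`val_w p ≤ val_w (ζ ^ k - 1)` (`val_natCast_le_val_sub`).  So `ζ ^ k = 1`, `σ B = B`, `σ = 1` (`kum_eq_one`).

Keys: `S55/C-KUM-a` (`isSplit_of_mem_lp`), `S55/C-KUM-b` (`mem_lp_of_isSplit`), `S55/C-KUM-c` (`exists_kummer`).
-/

set_option autoImplicit false

namespace Fermat.Agent.S55.C

open IsDedekindDomain NumberField Polynomial Fermat.Agent.S14

variable {F Z : Type*} [Field F] [NumberField F] [Field Z] [NumberField Z] [Algebra F Z]
  {p : ℕ} [Fact p.Prime] {ζ : 𝓞 F}

/-- the valuation of `w` restricted to `F` -/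
theorem kumC_val_algebraMap (w : Pl Z) (x : F) :
    w.valuation Z (algebraMap F Z x) = (below (K := F) w).valuation F x ^ ram F w := by
  have h := HeightOneSpectrum.valuation_liesOver (K := F) Z (below (K := F) w) w x
  rw [← ram_eq'] at h
  exact h.symm

/-- elements of the decomposition group are isometries -/
theorem kumC_val_sigma (σ : Z ≃ₐ[F] Z) (w : Pl Z) (hσ : gPl σ w = w) (x : Z) :
    w.valuation Z (σ x) = w.valuation Z x := by
  by_cases hx : x = 0
  · simp [hx]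
  · have h := ord_gPl σ w (Units.mk0 x hx)
    rw [hσ] at h
    have h1 := valuation_eq_exp w (gUZ σ (Units.mk0 x hx))
    have h2 := valuation_eq_exp w (Units.mk0 x hx)
    rw [h] at h1
    exact h1.trans h2.symm

/-- key `S55/C-KUM-a` -/
theorem isSplit_of_mem_lp (z : Fˣ) [IsSplittingField F Z (X ^ p - C (z : F))]
    (hζ : IsPrimitiveRoot ζ p) (hz : z ∉ pows F p) (v : Pl F) (h : z ∈ lp p v) : IsSplit Z v := by
  have hp : p.Prime := Fact.out
  have hdeg := kummer_finrank (Z := Z) z hζ hz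
  have hgal := kummer_isGalois (Z := Z) z hζ
  obtain ⟨w, rfl⟩ := fiber_nonempty (Z := Z) v
  refine isSplit_of_stabilizer hdeg w fun σ hσ => ?_
  obtain ⟨y, u, hzu, hu⟩ := (mem_lp_iff _ z).mp h
  obtain ⟨b, hb⟩ := kum_exists_root (Z := Z) (p := p) z
  set val := w.valuation Z with hval
  have hy0 : algebraMap F Z (y : F) ≠ 0 := (_root_.map_ne_zero _).mpr y.ne_zero
  set B : Z := (b : Z) / algebraMap F Z (y : F) with hB
  have hB0 : B ≠ 0 := div_ne_zero b.ne_zero hy0
  have hbz : (b : Z) ^ p = algebraMap F Z (z : F) := by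
    have := congrArg (fun t : Zˣ => (t : Z)) hb
    simpa using this
  have hBp : B ^ p = algebraMap F Z (u : F) := by
    rw [hB, div_pow, hbz, hzu, Units.val_mul, Units.val_pow_eq_pow_val, map_mul, map_pow,
      mul_div_cancel_left₀ _ (pow_ne_zero _ hy0)]
  obtain ⟨k, hk⟩ := kum_exists_pow hζ (u : F) B hB0 hBp σ
  have hζZ : IsPrimitiveRoot (algebraMap F Z (ζ : F)) p :=
    (kum_prim hζ).map_of_injective (algebraMap F Z).injective
  obtain ⟨μ, hμ, hle⟩ := exists_val_le val hp.pos hζZ B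
  have hμ1 : μ ^ p = 1 := (mem_nthRootsFinset hp.pos 1).mp hμ
  obtain ⟨i, -, hi⟩ := hζZ.eq_pow_of_pow_eq_one hμ1
  have hσμ : σ μ = μ := by rw [← hi, ← map_pow, AlgEquiv.commutes]
  have hvp : val (p : Z) = (below (K := F) w).valuation F (p : F) ^ ram F w := by
    rw [← kumC_val_algebraMap, map_natCast (algebraMap F Z)]
  have hvp0 : val (p : Z) ≠ 0 := by
    rw [Valuation.ne_zero_iff]; exact_mod_cast hp.ne_zero
  have hlt : val (B ^ p - 1) < val (p : Z) ^ 2 := by
    rw [hBp, ← map_one (algebraMap F Z), ← map_sub, hval, kumC_val_algebraMap, ← hval, hvp,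
      ← pow_mul, mul_comm, pow_mul]
    exact pow_lt_pow_left₀ hu zero_le (ram_pos w).ne'
  have h1 : val (B - μ) < val (p : Z) := by
    have := lt_of_le_of_lt hle hlt
    rw [sq] at this
    exact lt_of_mul_lt_mul_right' this
  have h2 : val (σ B - μ) < val (p : Z) := by
    rw [← hσμ, ← map_sub, hval, kumC_val_sigma σ w hσ]; exact h1
  set ξ : Z := algebraMap F Z ((ζ : F) ^ k) with hξ
  have hξ1 : ξ ^ p = 1 := by
    rw [hξ, map_pow, ← pow_mul, mul_comm, pow_mul, hζZ.pow_eq_one, one_pow]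
  have hξv : val ξ = 1 := val_root_eq_one val hp.pos hξ1
  have hμv : val μ = 1 := val_root_eq_one val hp.pos hμ1
  have h3 : val (ξ - 1) < val (p : Z) := by
    have e : μ * (ξ - 1) = (ξ * B - μ) - ξ * (B - μ) := by ring
    have : val (μ * (ξ - 1)) < val (p : Z) := by
      rw [e]
      refine lt_of_le_of_lt (Valuation.map_sub _ _ _) (max_lt ?_ ?_)
      · rw [← hk]; exact h2
      · rw [map_mul, hξv, one_mul]; exact h1
    rwa [map_mul, hμv, one_mul] at this
  have hξe : ξ = 1 := by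
    by_contra hne
    exact absurd (val_natCast_le_val_sub val hp.pos hζZ hξ1 (one_pow p) hne) (not_le.mpr h3)
  have hfix : σ B = B := by rw [hk, hξe, one_mul]
  refine kum_eq_one z hζ hz y⁻¹ B ?_ σ hfix
  rw [hBp, hzu]
  congr 1
  have hy : (y : F) ^ p ≠ 0 := pow_ne_zero _ y.ne_zero
  rw [Units.val_mul, Units.val_pow_eq_pow_val, Units.val_inv_eq_inv_val, inv_pow, mul_comm ((y : F) ^ p),
    mul_assoc, mul_inv_cancel₀ hy, mul_one]

theorem kumC_val_le_iff (w : Pl Z) (a : 𝓞 Z) (n : ℕ) :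
    w.valuation Z (a : Z) ≤ WithZero.exp (-(n : ℤ)) ↔ a ∈ w.asIdeal ^ n := by
  rw [← HeightOneSpectrum.intValuation_le_pow_iff_mem]
  rw [show w.valuation Z (a : Z) = w.intValuation a from HeightOneSpectrum.valuation_of_algebraMap w a]

theorem kumC_comap_pow (w : Pl Z) (he : ram F w = 1) (n : ℕ) :
    (w.asIdeal ^ n).comap (algebraMap (𝓞 F) (𝓞 Z)) = (below (K := F) w).asIdeal ^ n := by
  ext a
  rw [Ideal.mem_comap, ← kumC_val_le_iff, ← kumC_val_le_iff]
  have : ((algebraMap (𝓞 F) (𝓞 Z) a : 𝓞 Z) : Z) = algebraMap F Z (a : F) := rfl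
  rw [this, kumC_val_algebraMap, he, pow_one]

/-- `e = f = 1`: every integer of `Z` is congruent modulo `w ^ n` to an integer of `F` -/
theorem kumC_exists_congr_pow (w : Pl Z)
    (hN : Ideal.absNorm w.asIdeal = Ideal.absNorm (below (K := F) w).asIdeal) (he : ram F w = 1)
    (n : ℕ) (y : 𝓞 Z) : ∃ a : 𝓞 F, y - algebraMap (𝓞 F) (𝓞 Z) a ∈ w.asIdeal ^ n := by
  have hcomap := kumC_comap_pow (F := F) w he n
  have h : Ideal.absNorm (w.asIdeal ^ n) = Ideal.absNorm ((below (K := F) w).asIdeal ^ n) := by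
    rw [map_pow, map_pow, hN]
  rw [Ideal.absNorm_apply, Ideal.absNorm_apply, Submodule.cardQuot_apply,
    Submodule.cardQuot_apply] at h
  let f : (𝓞 F ⧸ (below (K := F) w).asIdeal ^ n) →+* (𝓞 Z ⧸ w.asIdeal ^ n) :=
    Ideal.quotientMap (w.asIdeal ^ n) (algebraMap (𝓞 F) (𝓞 Z)) hcomap.ge
  have hf : Function.Injective f := Ideal.quotientMap_injective' hcomap.le
  have : Finite (𝓞 Z ⧸ w.asIdeal ^ n) :=
    Ideal.finiteQuotientOfFreeOfNeBot _ (pow_ne_zero n w.ne_bot)
  have : Finite (𝓞 F ⧸ (below (K := F) w).asIdeal ^ n) :=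
    Ideal.finiteQuotientOfFreeOfNeBot _ (pow_ne_zero n (below (K := F) w).ne_bot)
  have hs : Function.Surjective f :=
    ((Nat.bijective_iff_injective_and_card f).mpr ⟨hf, h.symm⟩).2
  obtain ⟨a, ha⟩ := hs (Ideal.Quotient.mk _ y)
  obtain ⟨a, rfl⟩ := Ideal.Quotient.mk_surjective a
  refine ⟨a, ?_⟩
  rw [← Ideal.Quotient.eq, ← ha]
  rfl

/-- approximation of a nonzero integer of `Z` -/
theorem kumC_exists_approx_int (w : Pl Z)
    (hN : Ideal.absNorm w.asIdeal = Ideal.absNorm (below (K := F) w).asIdeal) (he : ram F w = 1)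
    (n : ℕ) (x : Zˣ) (a : 𝓞 Z) (hx : (x : Z) = a) : ∃ y : Fˣ, upU y / x ∈ Ulev w n := by
  have h0 := ord_nonneg_of_integer w x a hx
  obtain ⟨m, hm⟩ := Int.eq_ofNat_of_zero_le h0
  obtain ⟨a', ha'⟩ := kumC_exists_congr_pow (F := F) w hN he (m + n + 1) a
  rw [← kumC_val_le_iff] at ha'
  have hco : ((a - algebraMap (𝓞 F) (𝓞 Z) a' : 𝓞 Z) : Z) = (x : Z) - algebraMap F Z (a' : F) := by
    rw [hx]; rfl
  rw [hco] at ha'
  have hvx : w.valuation Z (x : Z) = WithZero.exp (-(m : ℤ)) := by rw [valuation_eq_exp, hm]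
  have ha0 : (a' : F) ≠ 0 := by
    intro h
    rw [h, map_zero, sub_zero, hvx, WithZero.exp_le_exp] at ha'
    push_cast at ha'
    omega
  refine ⟨Units.mk0 _ ha0, ?_⟩
  have hsub : w.valuation Z (((upU (Units.mk0 _ ha0) / x : Zˣ) : Z) - 1) ≤
      WithZero.exp (-((n : ℤ) + 1)) := by
    have e : ((upU (Units.mk0 _ ha0) / x : Zˣ) : Z) - 1 =
        - (((x : Z) - algebraMap F Z (a' : F)) / (x : Z)) := by
      have := x.ne_zero
      rw [Units.val_div_eq_div_val, coe_upU, Units.val_mk0]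
      field_simp
      ring
    rw [e, Valuation.map_neg, map_div₀, hvx, div_le_iff₀ (WithZero.exp_pos), ← WithZero.exp_add]
    refine ha'.trans (le_of_eq ?_)
    congr 1
    push_cast
    ring
  refine ⟨?_, hsub.trans ?_⟩
  · have hlt : w.valuation Z (((upU (Units.mk0 _ ha0) / x : Zˣ) : Z) - 1) < 1 := by
      refine lt_of_le_of_lt hsub ?_
      rw [← WithZero.exp_zero, WithZero.exp_lt_exp]
      omega
    have := Valuation.map_one_add_of_lt (v := w.valuation Z) hlt
    rwa [add_sub_cancel] at this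
  · rw [WithZero.exp_le_exp]; omega

/-- `F` is dense in `Z` for the `w`-adic topology -/
theorem kumC_exists_approx (w : Pl Z)
    (hN : Ideal.absNorm w.asIdeal = Ideal.absNorm (below (K := F) w).asIdeal) (he : ram F w = 1)
    (n : ℕ) (x : Zˣ) : ∃ y : Fˣ, upU y / x ∈ Ulev w n := by
  obtain ⟨a, d, hd, hxa⟩ := IsFractionRing.div_surjective (A := 𝓞 Z) (x : Z)
  have hd0 : (algebraMap (𝓞 Z) Z d) ≠ 0 := by
    rw [Ne, map_eq_zero_iff _ (IsFractionRing.injective (𝓞 Z) Z)]
    exact nonZeroDivisors.ne_zero hd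
  have ha0 : (algebraMap (𝓞 Z) Z a) ≠ 0 := by
    intro h
    rw [h, zero_div] at hxa
    exact x.ne_zero hxa.symm
  obtain ⟨y1, h1⟩ := kumC_exists_approx_int (F := F) w hN he n (Units.mk0 _ ha0) a rfl
  obtain ⟨y2, h2⟩ := kumC_exists_approx_int (F := F) w hN he n (Units.mk0 _ hd0) d rfl
  refine ⟨y1 / y2, ?_⟩
  have e : upU (y1 / y2) / x = (upU y1 / Units.mk0 _ ha0) / (upU y2 / Units.mk0 _ hd0) := by
    have hx : x = Units.mk0 _ ha0 / Units.mk0 _ hd0 := by
      ext
      rw [Units.val_div_eq_div_val]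
      exact hxa.symm
    rw [hx, _root_.map_div]
    exact (div_div_div_comm _ _ _ _)
  rw [e]
  exact div_mem h1 h2

theorem kumC_mem_Ulev_of_upU (w : Pl Z) (he : ram F w = 1) (n : ℕ) (t : Fˣ)
    (h : upU t ∈ Ulev w n) : t ∈ Ulev (below (K := F) w) n := by
  obtain ⟨h1, h2⟩ := h
  rw [coe_upU] at h1 h2
  rw [← map_one (algebraMap F Z), ← map_sub] at h2
  rw [kumC_val_algebraMap, he, pow_one] at h1 h2
  exact ⟨h1, h2⟩

/-- key `S55/C-KUM-b`. -/
theorem mem_lp_of_isSplit (z : Fˣ) [IsSplittingField F Z (X ^ p - C (z : F))]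
    (hζ : IsPrimitiveRoot ζ p) (hz : z ∉ pows F p) (v : Pl F) (h : IsSplit Z v) : z ∈ lp p v := by
  have hdeg := kummer_finrank (Z := Z) z hζ hz
  have hgal := kummer_isGalois (Z := Z) z hζ
  obtain ⟨w, rfl⟩ := fiber_nonempty (Z := Z) v
  have he : ram F w = 1 := h.isUnram hdeg w rfl
  have hN := h.absNorm_eq hdeg w rfl
  obtain ⟨b, hb⟩ := kum_exists_root (Z := Z) (p := p) z
  obtain ⟨y, hy⟩ := kumC_exists_approx (F := F) w hN he (lev p (below (K := F) w)) b
  have h1 : upU (y ^ p / z) ∈ Ulev w (lev p (below (K := F) w)) := by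
    rw [_root_.map_div, map_pow, ← hb, ← div_pow]
    exact pow_mem hy p
  have h2 := kumC_mem_Ulev_of_upU w he _ _ h1
  have e : z = y ^ p * (y ^ p / z)⁻¹ := by
    rw [inv_div, mul_div_cancel]
  rw [e]
  exact mul_mem (pows_le_lp _ ⟨y, rfl⟩) (Ulev_le_lp _ (inv_mem h2))

/-- key `S55/C-KUM-c`. -/
theorem exists_kummer [IsGalois F Z] (hζ : IsPrimitiveRoot ζ p) (hdeg : Module.finrank F Z = p) :
    ∃ z : Fˣ, z ∉ pows F p ∧ IsSplittingField F Z (X ^ p - C (z : F)) := by
  have hp : p.Prime := Fact.out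
  have hK : (primitiveRoots (Module.finrank F Z) F).Nonempty := by
    rw [hdeg]; exact kum_nonempty hζ
  have hcard : Nat.card (Z ≃ₐ[F] Z) = p := by rw [IsGalois.card_aut_eq_finrank, hdeg]
  have hcyc : IsCyclic (Z ≃ₐ[F] Z) := isCyclic_of_prime_card hcard
  obtain ⟨α, ⟨a, ha⟩, hα⟩ := exists_root_adjoin_eq_top_of_isCyclic F Z hK
  have hirr := irreducible_X_pow_sub_C_of_root_adjoin_eq_top ha.symm hα
  have hspl := isSplittingField_X_pow_sub_C_of_root_adjoin_eq_top hK ha.symm hα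
  rw [hdeg] at hirr hspl
  have ha0 : a ≠ 0 := by
    rintro rfl
    rw [C_0, sub_zero] at hirr
    have h2 : (2 : ℕ) ≤ p := hp.two_le
    have := hirr.isUnit_or_isUnit (a := X) (b := X ^ (p - 1)) (by rw [← pow_succ', Nat.sub_add_cancel hp.one_le])
    rcases this with h | h
    · exact not_isUnit_X h
    · exact not_isUnit_X ((isUnit_pow_iff (by omega)).mp h)
  refine ⟨Units.mk0 a ha0, ?_, hspl⟩
  rintro ⟨c, hc⟩
  have hc' : (c : F) ^ p = a := by
    have := congrArg (fun t : Fˣ => (t : F)) hc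
    simpa using this
  have hroot : (X ^ p - C a : F[X]).IsRoot (c : F) := by simp [hc']
  have hdeg1 := degree_eq_one_of_irreducible_of_root hirr hroot
  rw [degree_X_pow_sub_C hp.pos] at hdeg1
  have : p = 1 := by exact_mod_cast hdeg1
  exact hp.one_lt.ne' this

end Fermat.Agent.S55.C
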