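import Mathlib

/-!
# S55, layer C: separation of the `p`-th roots of unity by a valuation.

`exists_val_le`: for every `x` there is a `p`-th root of unity `μ` with
`val (x - μ) * val p ≤ val (x ^ p - 1)`.
-/

set_option autoImplicit false

namespace Fermat.Agent.S55.C

open Polynomial

open Classical in
theorem prod_erase_sub {L : Type*} [Field L] {p : ℕ} (hp : 0 < p) {ζ : L} (hζ : IsPrimitiveRoot ζ p)
    {μ : L} (hμ : μ ∈ nthRootsFinset p (1 : L)) :
    ∏ ν ∈ (nthRootsFinset p (1 : L)).erase μ, (μ - ν) = p * μ ^ (p - 1) := by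
  have h1 := X_pow_sub_one_eq_prod hp hζ
  have h2 := congrArg (fun f => eval μ (derivative f)) h1
  simp only [derivative_sub, derivative_X_pow, derivative_one, sub_zero, eval_mul, eval_pow, eval_X,
    eval_C] at h2
  have h3 := eval_multiset_prod_X_sub_C_derivative (S := (nthRootsFinset p (1 : L)).val) (r := μ) hμ
  rw [Finset.prod_eq_multiset_prod, Finset.erase_val, ← h3]
  simpa using h2.symm

theorem val_root_eq_one {L Γ : Type*} [Field L] [LinearOrderedCommGroupWithZero Γ]
    (val : Valuation L Γ) {p : ℕ} (hp : 0 < p) {μ : L} (hμ : μ ^ p = 1) : val μ = 1 := by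
  have h2 : val μ ^ p = 1 := by rw [← map_pow, hμ, map_one]
  exact (pow_eq_one_iff.mp h2).resolve_right hp.ne'

/-- the difference of two different `p`-th roots of unity divides `p` -/
theorem val_natCast_le_val_sub {L Γ : Type*} [Field L] [LinearOrderedCommGroupWithZero Γ]
    (val : Valuation L Γ) {p : ℕ} (hp : 0 < p) {ζ : L} (hζ : IsPrimitiveRoot ζ p) {μ ν : L}
    (hμ : μ ^ p = 1) (hν : ν ^ p = 1) (hne : μ ≠ ν) : val (p : L) ≤ val (μ - ν) := by
  classical
  have hμ' : μ ∈ nthRootsFinset p (1 : L) := (mem_nthRootsFinset hp 1).mpr hμ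
  have hν' : ν ∈ (nthRootsFinset p (1 : L)).erase μ :=
    Finset.mem_erase.mpr ⟨hne.symm, (mem_nthRootsFinset hp 1).mpr hν⟩
  have h1 : val (p : L) = ∏ κ ∈ (nthRootsFinset p (1 : L)).erase μ, val (μ - κ) := by
    rw [← map_prod, prod_erase_sub hp hζ hμ', map_mul, map_pow, val_root_eq_one val hp hμ, one_pow,
      mul_one]
  rw [h1, ← Finset.mul_prod_erase _ _ hν']
  refine mul_le_of_le_one_right' (Finset.prod_le_one' fun κ hκ => ?_)
  have hκ' : κ ^ p = 1 :=
    (mem_nthRootsFinset hp 1).mp (Finset.mem_of_mem_erase (Finset.mem_of_mem_erase hκ))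
  refine (Valuation.map_sub _ _ _).trans (max_le ?_ ?_)
  · rw [val_root_eq_one val hp hμ]
  · rw [val_root_eq_one val hp hκ']

theorem exists_val_le {L Γ : Type*} [Field L] [LinearOrderedCommGroupWithZero Γ] (val : Valuation L Γ)
    {p : ℕ} (hp : 0 < p) {ζ : L} (hζ : IsPrimitiveRoot ζ p) (x : L) :
    ∃ μ ∈ nthRootsFinset p (1 : L), val (x - μ) * val (p : L) ≤ val (x ^ p - 1) := by
  classical
  have hne : (nthRootsFinset p (1 : L)).Nonempty :=
    ⟨1, (mem_nthRootsFinset hp 1).mpr (one_pow _)⟩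
  obtain ⟨μ, hμ, hmin⟩ := Finset.exists_min_image (nthRootsFinset p (1 : L)) (fun ν => val (x - ν)) hne
  refine ⟨μ, hμ, ?_⟩
  have hprod : x ^ p - 1 = ∏ ν ∈ nthRootsFinset p (1 : L), (x - ν) := by
    have := congrArg (eval x) (X_pow_sub_one_eq_prod hp hζ)
    simpa [eval_prod] using this
  have hμ1 : val μ = 1 := val_root_eq_one val hp ((mem_nthRootsFinset hp 1).mp hμ)
  have hp' : val (p : L) = ∏ ν ∈ (nthRootsFinset p (1 : L)).erase μ, val (μ - ν) := by
    rw [← map_prod, prod_erase_sub hp hζ hμ, map_mul, map_pow, hμ1, one_pow, mul_one]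
  rw [hprod, map_prod, ← Finset.mul_prod_erase _ _ hμ, hp']
  refine mul_le_mul_right (Finset.prod_le_prod' ?_) _
  intro ν hν
  have h1 : μ - ν = (x - ν) - (x - μ) := by ring
  rw [h1]
  exact (Valuation.map_sub _ _ _).trans (max_le le_rfl (hmin ν (Finset.mem_of_mem_erase hν)))

end Fermat.Agent.S55.C
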