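import Fermat.Agent.S55.C.Defs
import Fermat.Agent.S55.C.Sep

/-!
# S55, layer C: basic properties of `eV`, `lp`, `lpS`; weak approximation.

Keys: `S55/C-LP-a` (everything up to `lp_tame`), `S55/C-LP-b` (`exists_approx`, `index_iInf_eq`).
-/

set_option autoImplicit false

namespace Fermat.Agent.S55.C

open IsDedekindDomain NumberField Fermat.Agent.S14

variable {F : Type*} [Field F] [NumberField F] {p : ℕ} [Fact p.Prime] {ζ : 𝓞 F}

namespace LpAux

theorem val_le_exp_iff (v : Pl F) (a : 𝓞 F) (n : ℕ) :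
    v.valuation F (a : F) ≤ WithZero.exp (-(n : ℤ)) ↔ a ∈ v.asIdeal ^ n := by
  rw [HeightOneSpectrum.valuation_of_algebraMap, HeightOneSpectrum.intValuation_le_pow_iff_mem]

theorem val_eq_one_iff (v : Pl F) (a : 𝓞 F) : v.valuation F (a : F) = 1 ↔ a ∉ v.asIdeal := by
  rw [HeightOneSpectrum.valuation_of_algebraMap, HeightOneSpectrum.intValuation_eq_one_iff]

theorem coe_ne_zero_of_not_mem {v : Pl F} {a : 𝓞 F} (ha : a ∉ v.asIdeal) : (a : F) ≠ 0 := by
  intro h
  apply ha
  have : a = 0 := by exact_mod_cast h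
  rw [this]; exact zero_mem _

/-- `a / b ∈ Ulev v n ↔ a - b ∈ v ^ n` -/
theorem frac_mem_Ulev_iff (v : Pl F) (n : ℕ) (x : Fˣ) (a b : 𝓞 F) (ha : a ∉ v.asIdeal)
    (hb : b ∉ v.asIdeal) (hx : (x : F) = (a : F) / (b : F)) :
    x ∈ Ulev v n ↔ a - b ∈ v.asIdeal ^ n := by
  have hb0 := coe_ne_zero_of_not_mem hb
  have h1 : v.valuation F (x : F) = 1 := by
    rw [hx, map_div₀, (val_eq_one_iff v a).mpr ha, (val_eq_one_iff v b).mpr hb, div_one]
  have h2 : v.valuation F ((x : F) - 1) = v.valuation F ((a - b : 𝓞 F) : F) := by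
    have : (x : F) - 1 = ((a - b : 𝓞 F) : F) / (b : F) := by
      rw [hx]; push_cast; field_simp
    rw [this, map_div₀, (val_eq_one_iff v b).mpr hb, div_one]
  rw [mem_Ulev_iff, h2, val_le_exp_iff]
  exact ⟨fun h => h.2, fun h => ⟨h1, h⟩⟩

/-- `val (u - 1) < 1` implies `val u = 1` -/
theorem val_eq_one_of_sub_lt (v : Pl F) (u : F) (h : v.valuation F (u - 1) < 1) :
    v.valuation F u = 1 := by
  have := Valuation.map_add_eq_of_lt_left (v.valuation F) (x := 1) (y := u - 1) (by simpa using h)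
  simpa using this

theorem le_exp_of_lt_exp {x : WithZero (Multiplicative ℤ)} {n : ℤ} (h : x < WithZero.exp n) :
    x ≤ WithZero.exp (n - 1) := by
  rcases eq_or_ne x 0 with rfl | hx
  · exact zero_le
  · obtain ⟨k, rfl⟩ : ∃ k, x = WithZero.exp k := ⟨WithZero.log x, (WithZero.exp_log hx).symm⟩
    rw [WithZero.exp_lt_exp] at h
    rw [WithZero.exp_le_exp]
    omega

end LpAux

open LpAux

theorem ord_pU (v : Pl F) : ord v (pU F p) = eV p v := by
  have h := ord_nonneg_of_integer v (pU F p) (p : 𝓞 F) (by simp)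
  rw [eV, Int.toNat_of_nonneg h]

/-- `val_v(p) = exp(-e_v)` -/
theorem valuation_natCast_p (v : Pl F) :
    v.valuation F (p : F) = WithZero.exp (-(eV p v : ℤ)) := by
  rw [← ord_pU, ← valuation_eq_exp, coe_pU]

theorem eV_eq_zero_iff (v : Pl F) : eV p v = 0 ↔ Tame p v := by
  have h := ord_eq_zero_iff v (pU F p) (p : 𝓞 F) (by simp)
  rw [ord_pU] at h
  rw [Tame, ← h]
  exact_mod_cast Iff.rfl

theorem lev_of_tame {v : Pl F} (hv : Tame p v) : lev p v = 1 := by
  rw [lev, (eV_eq_zero_iff v).mpr hv]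

theorem pows_le_lp (v : Pl F) : pows F p ≤ lp p v := le_sup_left

theorem Ulev_le_lp (v : Pl F) : Ulev v (lev p v) ≤ lp p v := le_sup_right

theorem mem_lpS_iff (S : Finset (Pl F)) (x : Fˣ) : x ∈ lpS p S ↔ ∀ v ∈ S, x ∈ lp p v := by
  simp [lpS, Subgroup.mem_iInf]

theorem pows_le_lpS (S : Finset (Pl F)) : pows F p ≤ lpS p S :=
  fun _ hx => (mem_lpS_iff S _).mpr fun v _ => pows_le_lp v hx

theorem dvd_ord_of_mem_lp (v : Pl F) (x : Fˣ) (h : x ∈ lp p v) : (p : ℤ) ∣ ord v x :=
  dvd_ord_of_mem_pows_sup_Ulev v _ x h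

/-- `x ∈ lp v` iff `x = y ^ p * u` with `val_v (u - 1) < val_v (p) ^ 2` -/
theorem mem_lp_iff (v : Pl F) (x : Fˣ) :
    x ∈ lp p v ↔ ∃ y u : Fˣ, x = y ^ p * u ∧
      v.valuation F ((u : F) - 1) < v.valuation F (p : F) ^ 2 := by
  have hp2 : v.valuation F (p : F) ^ 2 = WithZero.exp (-(2 * eV p v : ℤ)) := by
    rw [valuation_natCast_p, ← WithZero.exp_nsmul]
    congr 1
    simp
  rw [hp2]
  constructor
  · intro h
    obtain ⟨a, ⟨y, rfl⟩, u, hu, rfl⟩ := Subgroup.mem_sup.mp h
    refine ⟨y, u, rfl, lt_of_le_of_lt hu.2 ?_⟩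
    rw [WithZero.exp_lt_exp, lev]
    push_cast
    omega
  · rintro ⟨y, u, rfl, hu⟩
    refine Subgroup.mul_mem_sup ⟨y, rfl⟩ ⟨?_, ?_⟩
    · apply val_eq_one_of_sub_lt
      refine lt_of_lt_of_le hu ?_
      rw [← WithZero.exp_zero, WithZero.exp_le_exp]
      omega
    · refine (le_exp_of_lt_exp hu).trans (le_of_eq ?_)
      rw [lev]
      congr 1
      push_cast
      ring

theorem lp_tame (hζ : IsPrimitiveRoot ζ p) {v : Pl F} (hv : Tame p v) :
    lp p v = tamePow p ζ v := by
  have hp := (Fact.out : p.Prime)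
  apply le_antisymm
  · rw [lp, lev_of_tame hv]
    refine sup_le (pows_le_tamePow v) ?_
    intro x hx
    have h0 := ord_eq_zero_of_mem_Ulev hx
    refine ⟨by rw [h0]; exact dvd_zero _, ?_⟩
    obtain ⟨a, b, ha, hb, hab⟩ := exists_frac v x h0
    have hmem := (frac_mem_Ulev_iff v 1 x a b ha hb hab).mp hx
    rw [pow_one] at hmem
    have e : x = Units.mk0 (a : F) (coe_ne_zero_of_not_mem ha) *
        (Units.mk0 (b : F) (coe_ne_zero_of_not_mem hb))⁻¹ := by
      ext
      simp [hab, div_eq_mul_inv]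
    rw [e, res_mul, res_inv, res_congr hζ hv (Units.mk0 (a : F) (coe_ne_zero_of_not_mem ha))
      (Units.mk0 (b : F) (coe_ne_zero_of_not_mem hb)) a b rfl rfl ha hmem]
    ring
  · rintro x ⟨⟨k, hk⟩, hres⟩
    obtain ⟨π, hπ⟩ := exists_ord_eq {v} (fun _ => 1)
    have hπ1 : ord v π = 1 := hπ v (by simp)
    set x' : Fˣ := x / (π ^ k) ^ p with hx'
    have h0 : ord v x' = 0 := by
      rw [hx', ord_div, ord_pow, ord_zpow, hπ1, hk]; ring
    have hres' : res p ζ v x' = 0 := by
      rw [hx', div_eq_mul_inv, res_mul, res_inv, res_pow_p, hres]; ring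
    obtain ⟨a, b, ha, hb, hab⟩ := exists_frac v x' h0
    have hy : a * b ^ (p - 1) ∉ v.asIdeal := by
      intro h
      rcases v.isPrime.mem_or_mem h with h | h
      · exact ha h
      · exact hb (v.isPrime.mem_of_pow_mem _ h)
    set bu : Fˣ := Units.mk0 (b : F) (coe_ne_zero_of_not_mem hb) with hbu
    set yu : Fˣ := Units.mk0 ((a * b ^ (p - 1) : 𝓞 F) : F) (coe_ne_zero_of_not_mem hy) with hyu
    have hb0 : (b : F) ≠ 0 := coe_ne_zero_of_not_mem hb
    have e1 : yu = x' * bu ^ p := by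
      ext
      have : (b : F) ^ p = (b : F) ^ (p - 1) * b := by
        rw [← pow_succ, Nat.sub_add_cancel hp.one_le]
      simp only [hyu, hbu, Units.val_mk0, Units.val_mul, Units.val_pow_eq_pow_val, hab, this]
      push_cast
      field_simp
    have hresy : res p ζ v yu = 0 := by rw [e1, res_mul, res_pow_p, hres', add_zero]
    obtain ⟨c, hc⟩ := (res_eq_zero_iff hζ hv yu _ rfl hy).mp hresy
    have hcp : c ^ p ∉ v.asIdeal := by
      intro h
      apply hy
      have := add_mem hc h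
      rwa [sub_add_cancel] at this
    set cu : Fˣ := Units.mk0 ((c ^ p : 𝓞 F) : F) (coe_ne_zero_of_not_mem hcp) with hcu
    have hc0 : (c : F) ≠ 0 :=
      coe_ne_zero_of_not_mem (v := v) fun h => hcp (Ideal.pow_mem_of_mem _ h _ hp.pos)
    have hU : yu / cu ∈ Ulev v (lev p v) := by
      rw [lev_of_tame hv]
      refine (frac_mem_Ulev_iff v 1 _ _ _ hy hcp ?_).mpr (by rwa [pow_one])
      simp [hyu, hcu]
    have e2 : x = (π ^ k * Units.mk0 (c : F) hc0 / bu) ^ p * (yu / cu) := by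
      have e3 : cu = (Units.mk0 (c : F) hc0) ^ p := by
        ext; simp [hcu]
      rw [e3, e1, hx', div_pow, mul_pow]
      generalize (π ^ k) ^ p = α
      generalize (Units.mk0 (c : F) hc0) ^ p = γ
      generalize bu ^ p = β
      ext
      have h1 := α.ne_zero
      have h2 := β.ne_zero
      have h3 := γ.ne_zero
      simp only [Units.val_mul, Units.val_div_eq_div_val]
      field_simp
    rw [e2]
    exact Subgroup.mul_mem_sup ⟨_, rfl⟩ hU

/-! ### key S55/C-LP-b -/

namespace LpAux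

/-- a common denominator -/
theorem exists_common_denom (S : Finset (Pl F)) (x : Pl F → Fˣ) :
    ∃ d : 𝓞 F, d ≠ 0 ∧ ∀ v ∈ S, ∃ A : 𝓞 F, (d : F) * (x v : F) = A := by
  classical
  induction S using Finset.induction_on with
  | empty => exact ⟨1, one_ne_zero, by simp⟩
  | insert w S hw ih =>
    obtain ⟨d, hd, h⟩ := ih
    obtain ⟨a, b, hb, hab⟩ := IsFractionRing.div_surjective (A := 𝓞 F) (x w : F)
    have hb0 : b ≠ 0 := nonZeroDivisors.ne_zero hb
    have hb0' : (algebraMap (𝓞 F) F b) ≠ 0 := by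
      rwa [Ne, map_eq_zero_iff _ (IsFractionRing.injective (𝓞 F) F)]
    refine ⟨d * b, mul_ne_zero hd hb0, fun v hv => ?_⟩
    rcases Finset.mem_insert.mp hv with rfl | hv
    · refine ⟨d * a, ?_⟩
      rw [← hab]
      push_cast
      field_simp
    · obtain ⟨A, hA⟩ := h v hv
      refine ⟨A * b, ?_⟩
      push_cast
      linear_combination (b : F) * hA

end LpAux

/-- **weak approximation** (multiplicative form). -/
theorem exists_approx (S : Finset (Pl F)) (x : Pl F → Fˣ) (n : ℕ) :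
    ∃ y : Fˣ, ∀ v ∈ S, y / x v ∈ Ulev v n := by
  classical
  rcases S.eq_empty_or_nonempty with rfl | ⟨v₀, hv₀⟩
  · exact ⟨1, by simp⟩
  obtain ⟨d, hd, hA⟩ := exists_common_denom S x
  have hd' : (d : F) ≠ 0 := by
    intro h; apply hd; exact_mod_cast h
  choose! A hA using hA
  set du : Fˣ := Units.mk0 (d : F) hd' with hdu
  -- the order of `A v`
  set m : Pl F → ℕ := fun v => (ord v (du * x v)).toNat with hm
  have hm' : ∀ v ∈ S, ord v (du * x v) = m v := fun v hv => by
    rw [hm]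
    exact (Int.toNat_of_nonneg (ord_nonneg_of_integer v _ (A v) (by simpa [hdu] using hA v hv))).symm
  obtain ⟨Y, hY⟩ := IsDedekindDomain.exists_forall_sub_mem_ideal (s := S) (fun v => v.asIdeal)
    (fun v => n + m v + 1) (fun v _ => v.prime)
    (fun v _ w _ h => fun h' => h (HeightOneSpectrum.ext h')) (fun v => A v)
  have hval : ∀ v ∈ S, v.valuation F ((Y : F) - (du * x v : Fˣ)) ≤
      WithZero.exp (-((n + m v + 1 : ℕ) : ℤ)) := fun v hv => by
    have h1 := (val_le_exp_iff v _ _).mpr (hY v hv)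
    have h2 : ((du * x v : Fˣ) : F) = A v := by simpa [hdu] using hA v hv
    rw [h2]
    simpa using h1
  have hY0 : (Y : F) ≠ 0 := by
    intro h
    have h1 := hval v₀ hv₀
    rw [h, zero_sub, Valuation.map_neg, valuation_eq_exp, hm' v₀ hv₀, WithZero.exp_le_exp] at h1
    push_cast at h1
    omega
  refine ⟨Units.mk0 (Y : F) hY0 / du, fun v hv => ?_⟩
  have e : ((Units.mk0 (Y : F) hY0 / du / x v : Fˣ) : F) - 1 =
      ((Y : F) - (du * x v : Fˣ)) / (du * x v : Fˣ) := by
    have h1 := du.ne_zero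
    have h2 := (x v).ne_zero
    simp only [Units.val_mul, Units.val_div_eq_div_val, Units.val_mk0]
    field_simp
  have h3 : v.valuation F (((Units.mk0 (Y : F) hY0 / du / x v : Fˣ) : F) - 1) ≤
      WithZero.exp (-((n + 1 : ℕ) : ℤ)) := by
    rw [e, map_div₀, valuation_eq_exp v (du * x v), hm' v hv]
    rw [div_le_iff₀ (WithZero.exp_pos), ← WithZero.exp_add]
    refine (hval v hv).trans (le_of_eq ?_)
    congr 1
    push_cast
    ring
  refine ⟨val_eq_one_of_sub_lt v _ (lt_of_le_of_lt h3 ?_), h3.trans ?_⟩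
  · rw [← WithZero.exp_zero, WithZero.exp_lt_exp]
    push_cast
    omega
  · rw [WithZero.exp_le_exp]
    push_cast
    omega

/-- consequence of weak approximation: the index of an intersection of open subgroups at
different places is the product of the indices. -/
theorem index_iInf_eq (S : Finset (Pl F)) (H : Pl F → Subgroup Fˣ) (n : ℕ)
    (hH : ∀ v ∈ S, Ulev v n ≤ H v) :
    (⨅ v ∈ S, H v).index = ∏ v ∈ S, (H v).index := by
  classical
  let f : Fˣ →* ((v : S) → Fˣ ⧸ H v) := MonoidHom.pi fun v => QuotientGroup.mk' (H v)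
  have hker : f.ker = ⨅ v ∈ S, H v := by
    ext x
    rw [MonoidHom.mem_ker, funext_iff]
    simp only [Subgroup.mem_iInf]
    constructor
    · intro h v hv
      exact (QuotientGroup.eq_one_iff x).mp (h ⟨v, hv⟩)
    · intro h v
      exact (QuotientGroup.eq_one_iff x).mpr (h v.1 v.2)
  have hsurj : Function.Surjective f := by
    intro q
    obtain ⟨y, hy⟩ := exists_approx S (fun v => if h : v ∈ S then (q ⟨v, h⟩).out else 1) n
    refine ⟨y, funext fun v => ?_⟩
    have h1 := hH v.1 v.2 (hy v.1 v.2)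
    rw [dif_pos v.2] at h1
    have h2 : (QuotientGroup.mk y : Fˣ ⧸ H v) = QuotientGroup.mk (q v).out := by
      rw [QuotientGroup.eq]
      have : (y)⁻¹ * (q v).out = (y / (q v).out)⁻¹ := by
        rw [inv_div, div_eq_mul_inv, mul_comm]
      rw [this]
      exact inv_mem h1
    rw [QuotientGroup.out_eq'] at h2
    exact h2
  have h3 := Subgroup.index_ker (G := Fˣ) (G' := (v : S) → Fˣ ⧸ H v) f
  rw [← hker, h3, MonoidHom.range_eq_top.mpr hsurj, Nat.card_congr
    (Subgroup.topEquiv (G := (v : S) → Fˣ ⧸ H v)).toEquiv, Nat.card_pi]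
  rw [← Finset.prod_coe_sort S (fun v => (H v).index)]
  rfl

end Fermat.Agent.S55.C
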