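import Fermat.Agent.S55.C.KT1
import Fermat.Agent.S55.C.Count

/-!
# S55, layer C: the second inequality (Chevalley count), generalisation of `S14.T2`.
-/

set_option autoImplicit false

namespace Fermat.Agent.S55.C

open IsDedekindDomain NumberField Fermat.Agent.S14

variable {F : Type*} [Field F] [NumberField F] {p : ℕ} [Fact p.Prime] {ζ : 𝓞 F}

/-- an `S ∪ T`-unit which is a local `p`-th power at all places of `S` is a `p`-th power, provided
the `S`-units surject onto the residue symbols at `T`. -/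
theorem mem_pows_of_mem_lpS (hp : p ≠ 2) (hζ : IsPrimitiveRoot ζ p) (S T ST : Finset (Pl F))
    (hST : ∀ v, v ∈ ST ↔ v ∈ S ∨ v ∈ T)
    (hwild : ∀ v : Pl F, ¬ Tame p v → v ∈ S) (hgen : Gen S)
    (hsurj : ∀ ρ : Pl F → ZMod p, ∃ x ∈ SUnit F S, ∀ t ∈ T, res p ζ t x = ρ t)
    (a : Fˣ) (ha : a ∈ SUnit F ST) (ha' : a ∈ lpS p S) : a ∈ pows F p := by
  classical
  by_contra hz
  rw [mem_lpS_iff] at ha'
  rw [mem_SUnit_iff] at ha
  obtain ⟨c, φ, hc, hφ, hφ', hne, hrec⟩ := KT1 hp hζ a hz (fun v hv => ha' v (hwild v hv))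
  -- ramified places lie in `T`
  have hR : ∀ v, ¬ (p : ℤ) ∣ ord v a → v ∈ T ∧ v ∉ S := by
    intro v hv
    have h1 : v ∉ S := fun h => hv (dvd_ord_of_mem_lp v a (ha' v h))
    have h2 : v ∈ ST := by
      by_contra h
      exact hv (by rw [ha v h]; exact dvd_zero _)
    exact ⟨((hST v).mp h2).resolve_left h1, h1⟩
  have hφS : ∀ v ∈ S, φ v = 0 := fun v hv => hφ' v (ha' v hv)
  have hcT : ∀ v ∉ T, c v = 0 := fun v hv => hc v (by
    by_contra h
    exact hv (hR v h).1)
  -- `c = 0`
  have hc0 : c = 0 := by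
    funext t0
    by_cases ht0 : t0 ∈ T
    · obtain ⟨x, hx, hxT⟩ := hsurj (fun t => if t = t0 then 1 else 0)
      rw [mem_SUnit_iff] at hx
      have h1 := hrec x (fun v hv => hx v (hR v hv).2)
      have h2 : pair p φ x = 0 := by
        rw [pair_eq_sum φ x ∅ (fun v _ => by
          by_cases hvS : v ∈ S
          · exact Or.inl (hφS v hvS)
          · exact Or.inr (hx v hvS))]
        simp
      rw [h2, add_zero, rpair_eq_sum c x T hcT] at h1
      rw [Finset.sum_congr rfl (fun t ht => by rw [hxT t ht])] at h1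
      simpa [ht0] using h1
    · exact hcT t0 ht0
  have hφ0 : φ = 0 := by
    funext v
    by_cases hvS : v ∈ S
    · exact hφS v hvS
    by_cases hva : (p : ℤ) ∣ ord v a
    · obtain ⟨x, hx⟩ := hgen (Finsupp.single v 1)
      have h1 := hrec x (fun w hw => by
        rw [hx w (hR w hw).2, Finsupp.single_apply, if_neg]
        rintro rfl
        exact hw hva)
      have h2 : rpair p ζ c x = 0 := by
        rw [rpair_eq_sum c x ∅ (fun v _ => by rw [hc0]; rfl)]
        simp
      rw [h2, zero_add, pair_eq_sum φ x {v} (fun w hw => by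
        by_cases hwS : w ∈ S
        · exact Or.inl (hφS w hwS)
        · right
          rw [hx w hwS, Finsupp.single_apply, if_neg]
          rintro rfl
          exact hw (Finset.mem_singleton_self _))] at h1
      rw [Finset.sum_singleton, hx v hvS] at h1
      simpa using h1
    · exact hφ v hva
  rcases hne with h | h
  · exact h hc0
  · exact h hφ0

/-- **Second inequality.** -/
theorem T2 (hp : p ≠ 2) (hζ : IsPrimitiveRoot ζ p) (S T ST : Finset (Pl F))
    (hST : ∀ v, v ∈ ST ↔ v ∈ S ∨ v ∈ T)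
    (hwild : ∀ v : Pl F, ¬ Tame p v → v ∈ S) (hgen : Gen S) (hdisj : Disjoint S T)
    (hsurj : ∀ ρ : Pl F → ZMod p, ∃ x ∈ SUnit F S, ∀ t ∈ T, res p ζ t x = ρ t) :
    (lpS p S ⊔ SUnit F ST).index ≠ 0 ∧
      (lpS p S ⊔ SUnit F ST).index * p ^ T.card ≤ p ^ (S.card + rI F) := by
  classical
  have hp' : p.Prime := Fact.out
  obtain ⟨h0, hle⟩ := index_lpS_le hp hζ S hwild
  set W := lpS p S with hW
  set U := SUnit F ST with hU
  have hcard : ST.card = S.card + T.card := by
    rw [← Finset.card_union_of_disjoint hdisj]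
    congr 1
    ext v
    rw [hST, Finset.mem_union]
  have h1 : W.relIndex (W ⊔ U) * (W ⊔ U).index = W.index :=
    Subgroup.relIndex_mul_index le_sup_left
  have h2 : W.relIndex (W ⊔ U) = W.relIndex U := by
    exact Subgroup.relIndex_sup_left U W
  have h3 : W.relIndex U = (pows F p).relIndex U := by
    rw [← Subgroup.inf_relIndex_right, ← Subgroup.inf_relIndex_right (pows F p)]
    congr 1
    ext a
    simp only [Subgroup.mem_inf]
    constructor
    · rintro ⟨ha', ha⟩
      exact ⟨mem_pows_of_mem_lpS hp hζ S T ST hST hwild hgen hsurj a ha ha', ha⟩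
    · rintro ⟨ha', ha⟩
      exact ⟨pows_le_lpS S ha', ha⟩
  rw [h2, h3, relIndex_pows_SUnit hζ ST, hcard] at h1
  refine ⟨fun h => h0 (by rw [← h1, h, mul_zero]), ?_⟩
  rw [← h1] at hle
  have e1 : p ^ (S.card + T.card + rI F) * (W ⊔ U).index =
      p ^ (S.card + rI F) * ((W ⊔ U).index * p ^ T.card) := by
    rw [pow_add, pow_add, pow_add]; ring
  have e2 : p ^ (2 * S.card + 2 * rI F) = p ^ (S.card + rI F) * p ^ (S.card + rI F) := by
    rw [← pow_add]
    congr 1
    omega
  rw [e1, e2] at hle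
  exact Nat.le_of_mul_le_mul_left hle (pow_pos hp'.pos _)

end Fermat.Agent.S55.C
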